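import Fermat.Agent.Density.IdealCount
import Mathlib.NumberTheory.NumberField.DedekindZeta
import Mathlib.NumberTheory.EulerProduct.Basic
import Mathlib.NumberTheory.SumPrimeReciprocals
import Mathlib.Analysis.SpecialFunctions.Log.Summable

/-!
# Sums over primes of degree one in a number field

`normCount K n` is the number of ideals of norm `n`; for a prime `p` it is the number of
degree-one primes above `p`. The sum `∑ normCount K p * p ^ (-s)` is `log (1 / (s - 1)) + O(1)`.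
-/

set_option autoImplicit false

noncomputable section

open Filter Topology NumberField Ideal

namespace FLTA.Density

variable (K : Type*) [Field K] [NumberField K]

/-- The terms of the Dedekind zeta series, as real numbers. -/
def zetaTerm (s : ℝ) (n : ℕ) : ℝ := (normCount K n : ℝ) * (n : ℝ) ^ (-s)

theorem zetaTerm_nonneg (s : ℝ) (n : ℕ) : 0 ≤ zetaTerm K s n := by
  unfold zetaTerm; positivity

theorem zetaTerm_zero {s : ℝ} (hs : s ≠ 0) : zetaTerm K s 0 = 0 := by
  simp [zetaTerm, hs]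

theorem zetaTerm_one (s : ℝ) : zetaTerm K s 1 = 1 := by
  simp [zetaTerm, normCount_one]

theorem zetaTerm_mul (s : ℝ) {m n : ℕ} (h : m.Coprime n) :
    zetaTerm K s (m * n) = zetaTerm K s m * zetaTerm K s n := by
  unfold zetaTerm
  rw [normCount_mul K h, Nat.cast_mul, Nat.cast_mul,
    Real.mul_rpow (Nat.cast_nonneg m) (Nat.cast_nonneg n)]
  ring

theorem dedekindZeta_eq_tsum {s : ℝ} (hs : s ≠ 0) :
    dedekindZeta K s = ((∑' n, zetaTerm K s n : ℝ) : ℂ) := by
  rw [Complex.ofReal_tsum, dedekindZeta, LSeries]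
  refine tsum_congr fun n => ?_
  rcases eq_or_ne n 0 with rfl | hn
  · simp [zetaTerm_zero K hs]
  · rw [LSeries.term_of_ne_zero hn, zetaTerm, Complex.ofReal_mul, Complex.ofReal_natCast,
      Real.rpow_neg (Nat.cast_nonneg _), Complex.ofReal_inv,
      Complex.ofReal_cpow (Nat.cast_nonneg _), Complex.ofReal_natCast, div_eq_mul_inv]
    rfl

theorem tendsto_sub_one_mul_tsum_zetaTerm :
    Tendsto (fun s : ℝ => (s - 1) * ∑' n, zetaTerm K s n) (𝓝[>] 1)
      (𝓝 (dedekindZeta_residue K)) := by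
  have h := (Complex.continuous_re.tendsto _).comp (tendsto_sub_one_mul_dedekindZeta_nhdsGT K)
  refine h.congr' ?_
  filter_upwards [self_mem_nhdsWithin] with s (hs : 1 < s)
  rw [Function.comp_apply, dedekindZeta_eq_tsum K (by linarith), ← Complex.ofReal_one,
    ← Complex.ofReal_sub, ← Complex.ofReal_mul, Complex.ofReal_re]

/-- Bound for the coefficient at `p ^ k`. -/
def coeffBound (k : ℕ) : ℝ :=
  ((k * Module.finrank ℤ (𝓞 K) + 1 : ℕ) : ℝ) ^ Module.finrank ℤ (𝓞 K)

theorem zetaTerm_prime_pow_le {s : ℝ} (hs : 1 ≤ s) {p : ℕ} (hp : p.Prime) (k : ℕ) :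
    zetaTerm K s (p ^ k) ≤ coeffBound K k * ((p : ℝ) ^ k)⁻¹ := by
  unfold zetaTerm coeffBound
  refine mul_le_mul ?_ ?_ (by positivity) (by positivity)
  · exact_mod_cast normCount_prime_pow_le K hp k
  · rw [Nat.cast_pow, ← Real.rpow_neg_one]
    exact Real.rpow_le_rpow_of_exponent_le
      (one_le_pow₀ (Nat.one_le_cast.mpr hp.one_lt.le)) (by linarith)

omit [NumberField K] in
theorem summable_coeffBound_tail :
    Summable fun e : ℕ => coeffBound K (e + 2) * (2 : ℝ)⁻¹ ^ e := by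
  have h := summable_pow_mul_geometric_of_norm_lt_one (Module.finrank ℤ (𝓞 K))
    (r := (2 : ℝ)⁻¹) (by norm_num)
  have h3 := ((summable_nat_add_iff (f := fun n : ℕ =>
    ((n : ℝ) ^ Module.finrank ℤ (𝓞 K)) * (2 : ℝ)⁻¹ ^ n) 3).mpr h).mul_left
      (((Module.finrank ℤ (𝓞 K) + 1 : ℕ) : ℝ) ^ Module.finrank ℤ (𝓞 K) * 2 ^ 3)
  refine h3.of_nonneg_of_le (fun e => by unfold coeffBound; positivity) fun e => ?_
  set d := Module.finrank ℤ (𝓞 K)
  have hle : coeffBound K (e + 2) ≤ ((d + 1 : ℕ) : ℝ) ^ d * ((e + 3 : ℕ) : ℝ) ^ d := by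
    unfold coeffBound
    rw [← mul_pow, ← Nat.cast_mul]
    gcongr
    nlinarith
  calc coeffBound K (e + 2) * (2 : ℝ)⁻¹ ^ e
      ≤ ((d + 1 : ℕ) : ℝ) ^ d * ((e + 3 : ℕ) : ℝ) ^ d * (2 : ℝ)⁻¹ ^ e := by gcongr
    _ = _ := by
      rw [pow_add (2 : ℝ)⁻¹ e 3, inv_pow 2 3]
      field_simp

/-- The constant bounding the tail of an Euler factor. -/
def tailConst : ℝ := ∑' e : ℕ, coeffBound K (e + 2) * (2 : ℝ)⁻¹ ^ e

theorem tail_le {s : ℝ} (hs : 1 ≤ s) {p : ℕ} (hp : p.Prime) :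
    ∑' e : ℕ, zetaTerm K s (p ^ (e + 2)) ≤ tailConst K * ((p : ℝ) ^ 2)⁻¹ := by
  have hle : ∀ e : ℕ, zetaTerm K s (p ^ (e + 2)) ≤
      coeffBound K (e + 2) * (2 : ℝ)⁻¹ ^ e * ((p : ℝ) ^ 2)⁻¹ := by
    intro e
    refine (zetaTerm_prime_pow_le K hs hp (e + 2)).trans ?_
    rw [pow_add, mul_inv, mul_assoc]
    refine mul_le_mul_of_nonneg_left ?_ (by unfold coeffBound; positivity)
    rw [inv_pow]
    gcongr
    exact_mod_cast hp.two_le
  have hg := (summable_coeffBound_tail K).mul_right ((p : ℝ) ^ 2)⁻¹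
  rw [tailConst, ← tsum_mul_right]
  exact Summable.tsum_le_tsum hle (hg.of_nonneg_of_le (fun e => zetaTerm_nonneg K s _) hle) hg

omit [NumberField K] in
theorem tailConst_nonneg : 0 ≤ tailConst K :=
  tsum_nonneg fun e => by unfold coeffBound; positivity

/-- Bound on the difference between the logarithm of an Euler factor and its linear term. -/
def factorConst : ℝ := tailConst K + (coeffBound K 1 + tailConst K) ^ 2

theorem abs_log_factor_sub_le {s : ℝ} (hs : 1 < s) (hsum : Summable (zetaTerm K s)) {p : ℕ}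
    (hp : p.Prime) :
    1 ≤ ∑' e, zetaTerm K s (p ^ e) ∧
      |Real.log (∑' e, zetaTerm K s (p ^ e)) - zetaTerm K s p| ≤
        factorConst K * ((p : ℝ) ^ 2)⁻¹ := by
  have hsum' : Summable fun e => zetaTerm K s (p ^ e) :=
    hsum.comp_injective (Nat.pow_right_injective hp.two_le)
  set x := zetaTerm K s p
  set E := ∑' e : ℕ, zetaTerm K s (p ^ (e + 2))
  have hsplit : ∑' e, zetaTerm K s (p ^ e) = 1 + x + E := by
    rw [← hsum'.sum_add_tsum_nat_add 2]
    simp [Finset.sum_range_succ, zetaTerm_one, x, E]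
  have hx0 : 0 ≤ x := zetaTerm_nonneg K s p
  have hE0 : 0 ≤ E := tsum_nonneg fun _ => zetaTerm_nonneg K s _
  have hE : E ≤ tailConst K * ((p : ℝ) ^ 2)⁻¹ := tail_le K hs.le hp
  have hx : x ≤ coeffBound K 1 * (p : ℝ)⁻¹ := by
    simpa [x] using zetaTerm_prime_pow_le K hs.le hp 1
  rw [hsplit]
  refine ⟨by linarith, ?_⟩
  have hp1 : (1 : ℝ) ≤ p := Nat.one_le_cast.mpr hp.one_lt.le
  have hy : x + E ≤ (coeffBound K 1 + tailConst K) * (p : ℝ)⁻¹ := by
    have : tailConst K * ((p : ℝ) ^ 2)⁻¹ ≤ tailConst K * (p : ℝ)⁻¹ := by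
      refine mul_le_mul_of_nonneg_left ?_ (tailConst_nonneg K)
      exact inv_anti₀ (by linarith) (by nlinarith)
    linarith
  have hy2 : (x + E) ^ 2 ≤ (coeffBound K 1 + tailConst K) ^ 2 * ((p : ℝ) ^ 2)⁻¹ := by
    calc (x + E) ^ 2 ≤ ((coeffBound K 1 + tailConst K) * (p : ℝ)⁻¹) ^ 2 := by gcongr
      _ = _ := by rw [mul_pow, inv_pow]
  have hup : Real.log (1 + x + E) ≤ x + E := by
    linarith [Real.log_le_sub_one_of_pos (by linarith : 0 < 1 + x + E)]
  have hlow : x + E - (x + E) ^ 2 ≤ Real.log (1 + x + E) := by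
    refine le_trans ?_ (Real.one_sub_inv_le_log_of_pos (by linarith : 0 < 1 + x + E))
    have h1 : (1 + x + E) * (1 + x + E)⁻¹ = 1 := mul_inv_cancel₀ (by linarith)
    nlinarith [pow_nonneg (by linarith : 0 ≤ x + E) 3]
  have hsq : 0 ≤ ((p : ℝ) ^ 2)⁻¹ := by positivity
  have hc2 : 0 ≤ (coeffBound K 1 + tailConst K) ^ 2 * ((p : ℝ) ^ 2)⁻¹ := by positivity
  have hc1 : 0 ≤ tailConst K * ((p : ℝ) ^ 2)⁻¹ := mul_nonneg (tailConst_nonneg K) hsq
  rw [abs_le, factorConst, add_mul]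
  constructor <;> nlinarith

theorem summable_primes_inv_sq : Summable fun p : Nat.Primes => (((p : ℕ) : ℝ) ^ 2)⁻¹ :=
  (Real.summable_nat_pow_inv.mpr one_lt_two).subtype _

theorem summable_degreeOne_sum {s : ℝ} (hs : 1 < s) :
    Summable fun p : Nat.Primes => (normCount K p : ℝ) * ((p : ℕ) : ℝ) ^ (-s) := by
  refine ((Nat.Primes.summable_rpow.mpr (by linarith : -s < -1)).mul_left
    (coeffBound K 1)).of_nonneg_of_le (fun p => by positivity) fun p => ?_
  refine mul_le_mul_of_nonneg_right ?_ (by positivity)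
  have h := normCount_prime_pow_le K p.2 1
  rw [pow_one] at h
  unfold coeffBound
  exact_mod_cast h

theorem abs_degreeOne_sum_sub_log_le {s : ℝ} (hs : 1 < s) (hsum : Summable (zetaTerm K s)) :
    |(∑' p : Nat.Primes, (normCount K p : ℝ) * ((p : ℕ) : ℝ) ^ (-s)) -
        Real.log (∑' n, zetaTerm K s n)| ≤
      ∑' p : Nat.Primes, factorConst K * (((p : ℕ) : ℝ) ^ 2)⁻¹ := by
  set F : Nat.Primes → ℝ := fun p => ∑' e, zetaTerm K s ((p : ℕ) ^ e)
  set X : Nat.Primes → ℝ := fun p => zetaTerm K s p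
  have hb := summable_primes_inv_sq.mul_left (factorConst K)
  have hX : Summable X := summable_degreeOne_sum K hs
  have hd : Summable fun p => Real.log (F p) - X p :=
    hb.of_norm_bounded fun p => (abs_log_factor_sub_le K hs hsum p.2).2
  have hL : Summable fun p => Real.log (F p) := by simpa using hd.add hX
  have hpos : ∀ p, 0 < F p := fun p =>
    zero_lt_one.trans_le (abs_log_factor_sub_le K hs hsum p.2).1
  have hprod : ∏' p, F p = ∑' n, zetaTerm K s n :=
    EulerProduct.eulerProduct_tprod (zetaTerm_one K s) (fun h => zetaTerm_mul K s h)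
      (by simpa [abs_of_nonneg, zetaTerm_nonneg] using hsum) (zetaTerm_zero K (by linarith))
  have hlog : Real.log (∑' n, zetaTerm K s n) = ∑' p, Real.log (F p) := by
    rw [← hprod, ← Real.rexp_tsum_eq_tprod hpos hL, Real.log_exp]
  show |(∑' p, X p) - _| ≤ _
  rw [hlog, ← hX.tsum_sub hL, ← Real.norm_eq_abs]
  refine tsum_of_norm_bounded hb.hasSum fun p => ?_
  rw [Real.norm_eq_abs, abs_sub_comm]
  exact (abs_log_factor_sub_le K hs hsum p.2).2

theorem exists_bound_degreeOne_sum :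
    ∃ C : ℝ, ∀ᶠ s : ℝ in 𝓝[>] 1,
      Summable (fun p : Nat.Primes => (normCount K p : ℝ) * ((p : ℕ) : ℝ) ^ (-s)) ∧
      |(∑' p : Nat.Primes, (normCount K p : ℝ) * ((p : ℕ) : ℝ) ^ (-s)) -
        Real.log (1 / (s - 1))| ≤ C := by
  refine ⟨(∑' p : Nat.Primes, factorConst K * (((p : ℕ) : ℝ) ^ 2)⁻¹) +
    (|Real.log (dedekindZeta_residue K)| + 1), ?_⟩
  have hR := dedekindZeta_residue_pos K
  have hT := tendsto_sub_one_mul_tsum_zetaTerm K
  have hlog := ((Real.continuousAt_log hR.ne').tendsto.comp hT).abs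
  filter_upwards [self_mem_nhdsWithin, hT.eventually (lt_mem_nhds hR),
    hlog.eventually (gt_mem_nhds (lt_add_one _))] with s (hs : 1 < s) h1 h2
  have hs0 : 0 < s - 1 := by linarith
  have hZ : 0 < ∑' n, zetaTerm K s n := pos_of_mul_pos_right h1 hs0.le
  have hsum : Summable (zetaTerm K s) := by
    by_contra h
    exact hZ.ne' (tsum_eq_zero_of_not_summable h)
  refine ⟨summable_degreeOne_sum K hs, ?_⟩
  have h3 := abs_degreeOne_sum_sub_log_le K hs hsum
  have h4 : |Real.log (s - 1) + Real.log (∑' n, zetaTerm K s n)| ≤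
      |Real.log (dedekindZeta_residue K)| + 1 := by
    rw [← Real.log_mul hs0.ne' hZ.ne']
    exact h2.le
  rw [one_div, Real.log_inv]
  rw [abs_le] at h3 h4 ⊢
  constructor <;> linarith

end FLTA.Density
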