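/-
Degree-one prime sums of a number field.
-/
import Fermat.Agent.Density.PrimeSum

set_option autoImplicit false

noncomputable section

open Filter Topology

namespace FLTA.Density

/-- The number of ring homomorphisms `𝓞 F →+* ZMod p`; for a prime `p` this is the number of
primes of `F` of absolute norm `p`. -/
def degOneCount (F : Type*) [Field F] [NumberField F] (p : ℕ) : ℕ :=
  Nat.card (NumberField.RingOfIntegers F →+* ZMod p)

theorem degOneCount_eq_normCount (F : Type*) [Field F] [NumberField F] {p : ℕ} (hp : p.Prime) :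
    degOneCount F p = normCount F p := by
  have := Fact.mk hp
  let Φ : (NumberField.RingOfIntegers F →+* ZMod p) →
      {I : Ideal (NumberField.RingOfIntegers F) // Ideal.absNorm I = p} := fun f =>
    ⟨RingHom.ker f, by
      rw [Ideal.absNorm_apply, Submodule.cardQuot_apply]
      exact (Nat.card_congr (RingHom.quotientKerEquivOfSurjective
        (ZMod.ringHom_surjective f)).toEquiv).trans (Nat.card_zmod p)⟩
  refine Nat.card_congr (Equiv.ofBijective Φ ⟨fun f g h => ?_, fun I => ?_⟩)
  · have hker : RingHom.ker f = RingHom.ker g := congrArg Subtype.val h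
    refine RingHom.ext fun x => ?_
    obtain ⟨n, hn⟩ : ∃ n : ℕ, (n : ZMod p) = f x := ⟨(f x).val, ZMod.natCast_zmod_val _⟩
    have hmem : x - (n : NumberField.RingOfIntegers F) ∈ RingHom.ker g := by
      rw [← hker, RingHom.mem_ker, map_sub, map_natCast, hn, sub_self]
    rw [RingHom.mem_ker, map_sub, map_natCast, sub_eq_zero] at hmem
    rw [hmem, hn]
  · have hcard : Nat.card (NumberField.RingOfIntegers F ⧸ I.1) = p := by
      rw [← Submodule.cardQuot_apply, ← Ideal.absNorm_apply]
      exact I.2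
    have : Finite (NumberField.RingOfIntegers F ⧸ I.1) :=
      Nat.finite_of_card_ne_zero (by rw [hcard]; exact hp.ne_zero)
    have := Fintype.ofFinite (NumberField.RingOfIntegers F ⧸ I.1)
    let e := ZMod.ringEquivOfPrime (NumberField.RingOfIntegers F ⧸ I.1) hp
      (by rw [← Nat.card_eq_fintype_card, hcard])
    refine ⟨(e.symm : _ →+* ZMod p).comp (Ideal.Quotient.mk I.1), Subtype.ext ?_⟩
    show RingHom.ker _ = I.1
    rw [RingHom.ker_comp_of_injective _ e.symm.injective, Ideal.mk_ker]

theorem hasSum_degOneSum (F : Type*) [Field F] [NumberField F] (S : Finset ℕ) {s : ℝ}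
    (hs : 1 < s) :
    HasSum (fun p : {p : ℕ // p.Prime ∧ p ∉ S} => (degOneCount F p : ℝ) * (p : ℝ) ^ (-s))
      ((∑' p : Nat.Primes, (normCount F p : ℝ) * ((p : ℕ) : ℝ) ^ (-s)) -
        ∑ p ∈ S, {p : ℕ | p.Prime}.indicator (fun p => (normCount F p : ℝ) * (p : ℝ) ^ (-s)) p) := by
  classical
  set f : ℕ → ℝ := fun p => (normCount F p : ℝ) * (p : ℝ) ^ (-s)
  have hg : HasSum ({p : ℕ | p.Prime}.indicator f)
      (∑' p : Nat.Primes, (normCount F p : ℝ) * ((p : ℕ) : ℝ) ^ (-s)) :=
    hasSum_subtype_iff_indicator.mp (summable_degreeOne_sum F hs).hasSum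
  have hS : HasSum ((↑S : Set ℕ).indicator ({p : ℕ | p.Prime}.indicator f))
      (∑ p ∈ S, {p : ℕ | p.Prime}.indicator f p) := by
    have h := hasSum_sum_of_ne_finset_zero (L := SummationFilter.unconditional ℕ)
      (f := (↑S : Set ℕ).indicator ({p : ℕ | p.Prime}.indicator f)) (s := S)
      (fun b hb => Set.indicator_of_notMem (by simpa using hb) _)
    rwa [Finset.sum_congr rfl fun b hb => Set.indicator_of_mem (by simpa using hb) _] at h
  have h := hg.sub hS
  refine (Function.Injective.hasSum_iff Subtype.val_injective ?_).mpr h |>.congr_fun fun p => ?_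
  · intro x hx
    have : ¬ (x.Prime ∧ x ∉ S) := fun h => hx ⟨⟨x, h⟩, rfl⟩
    by_cases hxp : x.Prime <;> by_cases hxS : x ∈ S <;> simp_all
  · simp [p.2.1, p.2.2, f, degOneCount_eq_normCount F p.2.1]

theorem summable_degOneSum (F : Type*) [Field F] [NumberField F] (S : Finset ℕ) {s : ℝ}
    (hs : 1 < s) :
    Summable fun p : {p : ℕ // p.Prime ∧ p ∉ S} => (degOneCount F p : ℝ) * (p : ℝ) ^ (-s) :=
  (hasSum_degOneSum F S hs).summable

theorem tendsto_degOneSum_div_log (F : Type*) [Field F] [NumberField F] (S : Finset ℕ) :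
    Tendsto (fun s : ℝ => (∑' p : {p : ℕ // p.Prime ∧ p ∉ S},
      (degOneCount F p : ℝ) * (p : ℝ) ^ (-s)) / (- Real.log (s - 1))) (𝓝[>] 1) (𝓝 1) := by
  obtain ⟨C, hC⟩ := exists_bound_degreeOne_sum F
  set C' : ℝ := C + ∑ p ∈ S, (normCount F p : ℝ)
  have hlog : Tendsto (fun s : ℝ => - Real.log (s - 1)) (𝓝[>] 1) atTop := by
    refine tendsto_neg_atBot_atTop.comp (Real.tendsto_log_nhdsGT_zero.comp ?_)
    refine tendsto_nhdsWithin_iff.mpr
      ⟨((continuous_id.sub continuous_const).tendsto' 1 0 (by norm_num)).mono_left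
        nhdsWithin_le_nhds, ?_⟩
    filter_upwards [self_mem_nhdsWithin] with s (hs : 1 < s)
    exact sub_pos.mpr hs
  rw [← tendsto_sub_nhds_zero_iff]
  refine squeeze_zero_norm' ?_ (tendsto_const_nhds.div_atTop hlog (a := C'))
  filter_upwards [hC, self_mem_nhdsWithin, hlog.eventually (eventually_gt_atTop 0)] with s hs
    (h1 : 1 < s) hL
  rw [(hasSum_degOneSum F S h1).tsum_eq, Real.norm_eq_abs, div_sub_one hL.ne', abs_div,
    abs_of_pos hL]
  refine div_le_div_of_nonneg_right ?_ hL.le
  have h2 := hs.2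
  rw [one_div, Real.log_inv] at h2
  have h0 : (0 : ℝ) ≤
      ∑ p ∈ S, {p : ℕ | p.Prime}.indicator (fun p => (normCount F p : ℝ) * (p : ℝ) ^ (-s)) p :=
    Finset.sum_nonneg fun p _ => Set.indicator_nonneg (fun q _ => by positivity) p
  have h3 : ∑ p ∈ S, {p : ℕ | p.Prime}.indicator
      (fun p => (normCount F p : ℝ) * (p : ℝ) ^ (-s)) p ≤ ∑ p ∈ S, (normCount F p : ℝ) := by
    refine Finset.sum_le_sum fun p _ => ?_
    refine Set.indicator_apply_le' (fun hp : p.Prime => ?_) fun _ => by positivity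
    exact mul_le_of_le_one_right (by positivity)
      (Real.rpow_le_one_of_one_le_of_nonpos (Nat.one_le_cast.mpr hp.one_lt.le) (by linarith))
  rw [abs_le] at h2 ⊢
  constructor <;> · simp only [C']; linarith

end FLTA.Density
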