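/-
Degree-one primes and embeddings fixed by a Frobenius element.
-/
import Fermat.Prelude.Def_EllipticCurve_FrobeniusTrace
import Fermat.Agent.Density.DegreeOne
import Fermat.Agent.Galois.Places

set_option autoImplicit false

noncomputable section

open Polynomial IsLocalRing

namespace FLTA.Density

local notation "Qb" => AlgebraicClosure ℚ
local notation "GQ" => AlgebraicClosure ℚ ≃ₐ[ℚ] AlgebraicClosure ℚ

/-- A nonzero integral element is a nonunit at only finitely many residue characteristics. -/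
theorem exists_int_dvd_of_mem_nonunits {d : Qb} (hd : IsIntegral ℤ d) (hd0 : d ≠ 0) :
    ∃ c : ℤ, c ≠ 0 ∧ ∀ ℓ : ℕ, ℓ.Prime → ∀ A : ValuationSubring Qb, A.LiesOverPrime ℓ →
      d ∈ A.nonunits → (ℓ : ℤ) ∣ c := by
  have hc0 : (minpoly ℤ d).coeff 0 ≠ 0 := by
    intro h
    refine minpoly.coeff_zero_ne_zero (A := ℚ) hd.tower_top hd0 ?_
    rw [minpoly.isIntegrallyClosed_eq_field_fractions' ℚ hd, Polynomial.coeff_map, h, map_zero]
  refine ⟨(minpoly ℤ d).coeff 0, hc0, fun ℓ hℓ A hA hdA => ?_⟩
  set c : ℤ := (minpoly ℤ d).coeff 0 with hc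
  have hcA : (c : Qb) ∈ A.nonunits := by
    have h0 := minpoly.aeval ℤ d
    rw [← Polynomial.X_mul_divX_add (minpoly ℤ d), map_add, map_mul, aeval_X, aeval_C] at h0
    have hy : IsIntegral ℤ (aeval d (minpoly ℤ d).divX) := by
      rw [Polynomial.aeval_eq_sum_range]
      exact IsIntegral.sum _ fun i _ => (hd.pow i).smul _
    obtain ⟨hdmem, hdmax⟩ := ValuationSubring.mem_nonunits_iff_exists_mem_maximalIdeal.mp hdA
    have hymem : aeval d (minpoly ℤ d).divX ∈ A := Galois.mem_of_isIntegral hy
    have hprod : d * aeval d (minpoly ℤ d).divX ∈ A.nonunits :=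
      ValuationSubring.mem_nonunits_iff_exists_mem_maximalIdeal.mpr
        ⟨A.mul_mem _ _ hdmem hymem, Ideal.mul_mem_right (⟨_, hymem⟩ : A) _ hdmax⟩
    have : (c : Qb) = -(d * aeval d (minpoly ℤ d).divX) := by
      rw [eq_neg_iff_add_eq_zero, add_comm]
      simpa [hc] using h0
    rw [this]
    exact neg_mem hprod
  exact (Galois.intCast_mem_nonunits_iff hℓ hA c).mp hcA

/-- A number field has an integral primitive element together with a nonzero integer `m` such
that `m • 𝓞 F ⊆ ℤ[θ]`. -/
theorem exists_integral_primitive_element (F : Type*) [Field F] [NumberField F] :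
    ∃ (θ : F) (m : ℤ), IsIntegral ℤ θ ∧ m ≠ 0 ∧
      (∀ (e e' : F →ₐ[ℚ] Qb), e θ = e' θ → e = e') ∧
      ∀ z : F, IsIntegral ℤ z → m • z ∈ Algebra.adjoin ℤ ({θ} : Set F) := by
  obtain ⟨α, hα⟩ := Field.exists_primitive_element ℚ F
  obtain ⟨y, hy0, hy⟩ := exists_integral_multiples (A := ℤ) (K := ℚ) ({α} : Finset F)
  have hθ : IsIntegral ℤ (y • α) := hy α (Finset.mem_singleton_self α)
  have htop : (IntermediateField.adjoin ℚ ({y • α} : Set F)) = ⊤ := by
    rw [eq_top_iff, ← hα, IntermediateField.adjoin_le_iff, Set.singleton_subset_iff]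
    have h := IntermediateField.mem_adjoin_simple_self ℚ (y • α)
    have hne : (y : F) ≠ 0 := Int.cast_ne_zero.mpr hy0
    have : α = (y : F)⁻¹ * (y • α) := by
      rw [zsmul_eq_mul, inv_mul_cancel_left₀ hne]
    have hmem := mul_mem (inv_mem (intCast_mem (IntermediateField.adjoin ℚ ({y • α} : Set F)) y)) h
    convert hmem using 1
    rw [← this]; rfl
  have hint : IsIntegral ℚ (y • α) := hθ.tower_top
  have htop' : Algebra.adjoin ℚ ({y • α} : Set F) = ⊤ := by
    rw [← IntermediateField.adjoin_simple_toSubalgebra_of_isAlgebraic hint.isAlgebraic, htop]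
    rfl
  set pb : PowerBasis ℚ F := PowerBasis.ofAdjoinEqTop hint htop' with hpb
  have hgen : pb.gen = y • α := PowerBasis.ofAdjoinEqTop_gen hint htop'
  have hdi : IsIntegral ℤ (Algebra.discr ℚ pb.basis) := by
    refine Algebra.discr_isIntegral ℚ fun i => ?_
    rw [pb.basis_eq_pow, hgen]
    exact hθ.pow _
  obtain ⟨m, hm⟩ := IsIntegrallyClosed.isIntegral_iff.mp hdi
  refine ⟨y • α, m, hθ, ?_, ?_, fun z hz => ?_⟩
  · intro h0
    rw [h0, map_zero] at hm
    exact Algebra.discr_not_zero_of_basis ℚ pb.basis hm.symm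
  · intro e e' h
    refine pb.algHom_ext ?_
    rw [hgen, h]
  · have := Algebra.discr_mul_isIntegral_mem_adjoin ℚ (B := pb) (hgen ▸ hθ) hz
    rw [hgen, ← hm] at this
    rwa [algebraMap_smul] at this

/-- Residues of elements of the prime field. -/
theorem exists_zmod_cast_eq_of_pow_eq {κ : Type*} [Field κ] (ℓ : ℕ) [Fact ℓ.Prime] [CharP κ ℓ]
    {x : κ} (hx : x ^ ℓ = x) : ∃ z : ZMod ℓ, ZMod.castHom dvd_rfl κ z = x := by
  have h : x ∈ (⊥ : Subfield κ) := (Subfield.mem_bot_iff_pow_eq_self κ ℓ).mpr hx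
  have hle : (⊥ : Subfield κ) ≤ (ZMod.castHom dvd_rfl κ : ZMod ℓ →+* κ).fieldRange := bot_le
  exact RingHom.mem_fieldRange.mp (hle h)

variable (F : Type*) [Field F] [NumberField F]

/-- For almost all primes `ℓ`, the degree-one primes of `F` above `ℓ` correspond to the
embeddings of `F` fixed by a Frobenius element at a place above `ℓ`. -/
theorem exists_degOneCount_eq_card_fixed :
    ∃ S₀ : Finset ℕ, ∀ ℓ : ℕ, ℓ.Prime → ℓ ∉ S₀ → ∀ A : ValuationSubring Qb, A.LiesOverPrime ℓ →
      ∀ τ : GQ, A.IsFrobeniusAt τ ℓ →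
        degOneCount F ℓ = Nat.card {e : F →ₐ[ℚ] Qb // ∀ x, τ (e x) = e x} := by
  classical
  obtain ⟨θ, m, hθ, hm0, hsep, hadj⟩ := exists_integral_primitive_element F
  have hint : ∀ (e : F →ₐ[ℚ] Qb) {z : F}, IsIntegral ℤ z → IsIntegral ℤ (e z) :=
    fun e _ hz => hz.map (e.toRingHom.toIntAlgHom)
  have hpair : ∀ p : (F →ₐ[ℚ] Qb) × (F →ₐ[ℚ] Qb), ∃ c : ℤ, c ≠ 0 ∧ ∀ ℓ : ℕ, ℓ.Prime →
      ∀ A : ValuationSubring Qb, A.LiesOverPrime ℓ →
        p.1 θ - p.2 θ ∈ A.nonunits → p.1 = p.2 ∨ (ℓ : ℤ) ∣ c := by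
    intro p
    by_cases h : p.1 = p.2
    · exact ⟨1, one_ne_zero, fun _ _ _ _ _ => Or.inl h⟩
    · obtain ⟨c, hc0, hc⟩ := exists_int_dvd_of_mem_nonunits ((hint p.1 hθ).sub (hint p.2 hθ))
        (sub_ne_zero.mpr fun h' => h (hsep _ _ h'))
      exact ⟨c, hc0, fun ℓ hℓ A hA hd => Or.inr (hc ℓ hℓ A hA hd)⟩
  choose c hc0 hc using hpair
  set N : ℤ := m * ∏ p, c p with hN
  have hN0 : N ≠ 0 := mul_ne_zero hm0 (Finset.prod_ne_zero_iff.mpr fun p _ => hc0 p)
  refine ⟨N.natAbs.primeFactors, fun ℓ hℓ hℓS A hA τ hτ => ?_⟩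
  have hnd : ¬ (ℓ : ℤ) ∣ N := fun hd =>
    hℓS (Nat.mem_primeFactors.mpr ⟨hℓ, Int.natCast_dvd.mp hd, Int.natAbs_ne_zero.mpr hN0⟩)
  haveI := Fact.mk hℓ
  haveI : CharP (ResidueField A) ℓ := Galois.charP_residueField hℓ hA
  obtain ⟨hτd, hτf⟩ := Galois.isFrobeniusAt_iff.mp hτ
  -- reduction is injective on the conjugates of `θ`
  have hinj : ∀ e e' : F →ₐ[ℚ] Qb, e θ - e' θ ∈ A.nonunits → e = e' := by
    intro e e' h
    rcases hc (e, e') ℓ hℓ A hA h with h' | h'
    · exact h'
    · exact absurd (h'.trans ((Finset.dvd_prod_of_mem c (Finset.mem_univ _)).mul_left m)) hnd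
  -- the integer `m` is invertible in the residue field
  have hmκ : ∀ (R : Type) [CommRing R] [IsDomain R] [CharP R ℓ], (m : R) ≠ 0 := by
    intro R _ _ _ h
    exact hnd (((CharP.intCast_eq_zero_iff R ℓ m).mp h).mul_right _)
  -- the reduction of an embedding
  let red : (F →ₐ[ℚ] Qb) → (NumberField.RingOfIntegers F →+* ResidueField A) := fun e =>
    (residue A).comp
      ((e.toRingHom.comp (algebraMap (NumberField.RingOfIntegers F) F)).codRestrict A.toSubring
        fun z => Galois.mem_of_isIntegral (A := A) (hint e z.2))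
  let ι : ZMod ℓ →+* ResidueField A := ZMod.castHom dvd_rfl _
  have hι : Function.Injective ι := ι.injective
  -- homs agreeing at `θ` are equal
  let θO : NumberField.RingOfIntegers F := ⟨θ, hθ⟩
  have hext : ∀ f g : NumberField.RingOfIntegers F →+* ResidueField A, f θO = g θO → f = g := by
    intro f g hfg
    refine RingHom.ext fun z => ?_
    have hz := hadj (z : F) z.2
    rw [Algebra.adjoin_singleton_eq_range_aeval] at hz
    obtain ⟨P, hP⟩ := hz
    have hP' : aeval θO P = m • z := by
      apply NumberField.RingOfIntegers.ext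
      show algebraMap (NumberField.RingOfIntegers F) F (aeval θO P) =
        algebraMap (NumberField.RingOfIntegers F) F (m • z)
      rw [← Polynomial.aeval_algebraMap_apply, map_zsmul]
      exact hP
    have h1 : f.toIntAlgHom (aeval θO P) = g.toIntAlgHom (aeval θO P) := by
      rw [← Polynomial.aeval_algHom_apply, ← Polynomial.aeval_algHom_apply]
      exact congrArg (fun t => aeval t P) hfg
    rw [hP'] at h1
    simp only [zsmul_eq_mul, map_mul, map_intCast] at h1
    exact mul_left_cancel₀ (hmκ _) h1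
  have hredval : ∀ e z, red e z = residue A
      ⟨e (z : F), Galois.mem_of_isIntegral (hint e z.2)⟩ := fun e z => rfl
  -- the map to homs with values in the prime field
  have key : ∀ e : {e : F →ₐ[ℚ] Qb // ∀ x, τ (e x) = e x},
      ∃ ψ : NumberField.RingOfIntegers F →+* ZMod ℓ, ι.comp ψ = red e.1 := by
    intro e
    have hfix : ∀ z, (red e.1 z) ^ ℓ = red e.1 z := by
      intro z
      rw [hredval, ← map_pow, eq_comm, Galois.residue_eq_iff_sub_mem_nonunits]
      have h := hτf _ (Galois.mem_of_isIntegral (A := A) (hint e.1 z.2))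
      rw [e.2] at h
      exact h
    choose f hf using fun z => exists_zmod_cast_eq_of_pow_eq ℓ (hfix z)
    refine ⟨⟨⟨⟨f, ?_⟩, ?_⟩, ?_, ?_⟩, RingHom.ext hf⟩
    · exact hι (by simp only [ι, hf, map_one])
    · exact fun x y => hι (by simp only [ι, hf, map_mul])
    · exact hι (by simp only [ι, hf, map_zero])
    · exact fun x y => hι (by simp only [ι, hf, map_add])
  choose Ψ hΨ using key
  have hbij : Function.Bijective Ψ := by
    constructor
    · intro e e' h
      apply Subtype.ext
      have h2 : red e.1 θO = red e'.1 θO := by rw [← hΨ, ← hΨ, h]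
      rw [hredval, hredval, Galois.residue_eq_iff_sub_mem_nonunits] at h2
      exact hinj _ _ h2
    · intro ψ
      -- some conjugate of `θ` reduces to `ψ θ`
      obtain ⟨e, he⟩ : ∃ e : F →ₐ[ℚ] Qb, red e θO = ι (ψ θO) := by
        obtain ⟨w, hw⟩ := Ideal.Quotient.mk_surjective (I := maximalIdeal A) (ι (ψ θO))
        set f := minpoly ℤ θ with hf
        have hfO : aeval θO f = 0 := by
          apply NumberField.RingOfIntegers.ext
          show algebraMap (NumberField.RingOfIntegers F) F (aeval θO f) =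
            algebraMap (NumberField.RingOfIntegers F) F 0
          rw [← Polynomial.aeval_algebraMap_apply, map_zero]
          exact minpoly.aeval ℤ θ
        have hfw : residue A (aeval w f) = 0 := by
          have h1 : (residue A).toIntAlgHom (aeval w f) = (ι.comp ψ).toIntAlgHom (aeval θO f) := by
            rw [← Polynomial.aeval_algHom_apply, ← Polynomial.aeval_algHom_apply]
            exact congrArg (fun t => aeval t f) hw
          rw [hfO, map_zero] at h1
          exact h1
        rw [Galois.residue_eq_zero_iff_mem_nonunits] at hfw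
        have hcoe : ((aeval w f : A) : Qb) = (f.map (algebraMap ℤ Qb)).eval (w : Qb) := by
          rw [Polynomial.eval_map, ← Polynomial.aeval_def]
          exact (Polynomial.aeval_algHom_apply A.subtype.toIntAlgHom w f).symm
        have hprod : (f.map (algebraMap ℤ Qb)).eval (w : Qb) =
            ((f.map (algebraMap ℤ Qb)).roots.map fun r => (w : Qb) - r).prod :=
          (IsAlgClosed.splits _).eval_eq_prod_roots_of_monic ((minpoly.monic hθ).map _) _
        rw [hcoe, hprod, ValuationSubring.mem_nonunits_iff, map_multiset_prod,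
          Multiset.map_map] at hfw
        obtain ⟨r, hr, hrlt⟩ : ∃ r ∈ (f.map (algebraMap ℤ Qb)).roots,
            A.valuation ((w : Qb) - r) < 1 := by
          by_contra hcon
          push_neg at hcon
          refine hfw.ne (Multiset.prod_eq_one fun x hx => ?_)
          obtain ⟨r, hr, rfl⟩ := Multiset.mem_map.mp hx
          refine le_antisymm ((A.valuation_le_one_iff _).mpr (sub_mem w.2 ?_)) (hcon r hr)
          refine Galois.mem_of_isIntegral ⟨f, minpoly.monic hθ, ?_⟩
          rw [← Polynomial.eval_map]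
          exact (Polynomial.mem_roots'.mp hr).2
        have hr' : r ∈ (minpoly ℚ θ).rootSet Qb := by
          rw [Polynomial.rootSet, Finset.mem_coe, Multiset.mem_toFinset, Polynomial.aroots,
            minpoly.isIntegrallyClosed_eq_field_fractions' ℚ hθ, Polynomial.map_map,
            ← IsScalarTower.algebraMap_eq]
          exact hr
        rw [← Algebra.IsAlgebraic.range_eval_eq_rootSet_minpoly] at hr'
        obtain ⟨e, he⟩ := hr'
        refine ⟨e, ?_⟩
        rw [hredval, ← hw]
        refine ((Galois.residue_eq_iff_sub_mem_nonunits w _).mpr ?_).symm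
        show (w : Qb) - e θ ∈ A.nonunits
        rw [show e θ = r from he]
        exact hrlt
      have hered : red e = ι.comp ψ := hext _ _ he
      have hfe : τ.toAlgHom.comp e = e := by
        refine hinj _ _ ?_
        show τ (e θ) - e θ ∈ A.nonunits
        have h2 : (red e θO) ^ ℓ = red e θO := by
          rw [he, ← map_pow, ZMod.pow_card]
        rw [hredval, ← map_pow, Galois.residue_eq_iff_sub_mem_nonunits] at h2
        have h3 := hτf _ (Galois.mem_of_isIntegral (A := A) (hint e hθ))
        have h4 := add_mem h3 h2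
        simpa [θO] using h4
      refine ⟨⟨e, fun x => AlgHom.congr_fun hfe x⟩, ?_⟩
      exact RingHom.ext fun z =>
        hι ((RingHom.congr_fun (hΨ ⟨e, _⟩) z).trans (RingHom.congr_fun hered z))
  rw [degOneCount, Nat.card_congr (Equiv.ofBijective Ψ hbij)]

end FLTA.Density
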