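/-
Cosets and the Moebius combination isolating generators of a cyclic subgroup.
-/
import Mathlib

set_option autoImplicit false

noncomputable section

open Subgroup

namespace FLTA.Density

local notation "Qb" => AlgebraicClosure ℚ
local notation "GQ" => AlgebraicClosure ℚ ≃ₐ[ℚ] AlgebraicClosure ℚ

/-- The embeddings of the fixed field of `D` fixed by `τ`, counted with multiplicity `#D`, are
the elements `g` with `g⁻¹ τ g ∈ D`. -/
theorem card_fixed_mul_card_eq (L : IntermediateField ℚ Qb) [FiniteDimensional ℚ L] [Normal ℚ L]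
    (D : Subgroup (L ≃ₐ[ℚ] L)) (τ : GQ) :
    Nat.card {e : IntermediateField.fixedField D →ₐ[ℚ] Qb // ∀ x, τ (e x) = e x} * Nat.card D =
      Nat.card {g : L ≃ₐ[ℚ] L // g⁻¹ * τ.restrictNormal L * g ∈ D} := by
  set F := IntermediateField.fixedField D with hF
  let emb : (L ≃ₐ[ℚ] L) → (F →ₐ[ℚ] Qb) := fun g =>
    L.val.comp (g.toAlgHom.comp F.val)
  have hmem : ∀ h : L ≃ₐ[ℚ] L, h ∈ D ↔ ∀ x : F, h x = x := by
    intro h
    conv_lhs => rw [← IntermediateField.fixingSubgroup_fixedField D]
    rw [IntermediateField.mem_fixingSubgroup_iff]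
    exact ⟨fun H x => H x x.2, fun H x hx => H ⟨x, hx⟩⟩
  have hemb : ∀ g g' : L ≃ₐ[ℚ] L, emb g = emb g' ↔ g⁻¹ * g' ∈ D := by
    intro g g'
    rw [hmem]
    constructor
    · intro h x
      have hx : g (x : L) = g' x := Subtype.ext (AlgHom.congr_fun h x)
      show g.symm (g' x) = x
      rw [← hx, AlgEquiv.symm_apply_apply]
    · intro h
      refine AlgHom.ext fun x => ?_
      have hx : g.symm (g' x) = (x : L) := h x
      show ((g (x : L) : L) : Qb) = (g' (x : L) : L)
      conv_lhs => rw [← hx, AlgEquiv.apply_symm_apply]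
  have hsurj : ∀ e : F →ₐ[ℚ] Qb, ∃ g, emb g = e := by
    intro e
    obtain ⟨φ, hφ⟩ := IntermediateField.exists_algHom_of_splits (E := L) (L := F) (f := e)
      fun x => ⟨Algebra.IsIntegral.isIntegral x, IsAlgClosed.splits _⟩
    refine ⟨φ.restrictNormal' L, AlgHom.ext fun x => ?_⟩
    rw [← hφ]
    exact AlgHom.restrictNormal_commutes φ L (x : L)
  have hfix : ∀ g : L ≃ₐ[ℚ] L,
      (∀ x, τ (emb g x) = emb g x) ↔ g⁻¹ * τ.restrictNormal L * g ∈ D := by
    intro g
    rw [hmem]
    refine forall_congr' fun x => ?_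
    show τ (algebraMap L Qb (g x)) = algebraMap L Qb (g x) ↔ g.symm (τ.restrictNormal L (g x)) = x
    rw [← AlgEquiv.restrictNormal_commutes, (algebraMap L Qb).injective.eq_iff,
      AlgEquiv.symm_apply_eq]
  choose sec hsec using hsurj
  have hin : ∀ (e : F →ₐ[ℚ] Qb) (d : D), emb (sec e * d) = e := fun e d => by
    rw [← (hemb (sec e) (sec e * d)).mpr (by rw [inv_mul_cancel_left]; exact d.2), hsec]
  rw [← Nat.card_prod]
  refine Nat.card_congr
    { toFun := fun p => ⟨sec p.1.1 * p.2, (hfix _).mp (by rw [hin]; exact p.1.2)⟩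
      invFun := fun g => (⟨emb g.1, (hfix g.1).mpr g.2⟩,
        ⟨(sec (emb g.1))⁻¹ * g.1, (hemb _ _).mp (hsec _)⟩)
      left_inv := fun p => ?_
      right_inv := fun g => Subtype.ext (mul_inv_cancel_left _ _) }
  refine Prod.ext (Subtype.ext (hin _ _)) (Subtype.ext ?_)
  show (sec (emb (sec p.1.1 * p.2)))⁻¹ * (sec p.1.1 * p.2) = p.2
  rw [hin, inv_mul_cancel_left]

open scoped Classical in
/-- Moebius inversion over the subgroups of a finite cyclic group. -/
theorem sum_moebius_mem_zpowers {G : Type*} [Group G] [Finite G] (σ x : G) :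
    ∑ d ∈ (orderOf σ).divisors,
        ArithmeticFunction.moebius d * (if x ∈ zpowers (σ ^ d) then 1 else 0) =
      if zpowers x = zpowers σ then 1 else 0 := by
  by_cases hx : x ∈ zpowers σ
  · obtain ⟨k, rfl⟩ := (isOfFinOrder_of_finite σ).mem_powers_iff_mem_zpowers.mpr hx
    simp only
    have hn : orderOf σ ≠ 0 := (orderOf_pos σ).ne'
    have hiff : ∀ d ∈ (orderOf σ).divisors,
        (σ ^ k ∈ zpowers (σ ^ d) ↔ d ∈ (Nat.gcd (orderOf σ) k).divisors) := by
      intro d hd
      have hdn := (Nat.mem_divisors.mp hd).1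
      rw [Nat.mem_divisors, Nat.dvd_gcd_iff]
      constructor
      · intro h
        obtain ⟨j, hj⟩ := (isOfFinOrder_of_finite (σ ^ d)).mem_powers_iff_mem_zpowers.mpr h
        simp only [← pow_mul, pow_eq_pow_iff_modEq] at hj
        refine ⟨⟨hdn, ?_⟩, Nat.gcd_ne_zero_left hn⟩
        exact (Nat.ModEq.dvd_iff hj hdn).mp (dvd_mul_right d j)
      · rintro ⟨⟨_, j, rfl⟩, _⟩
        rw [pow_mul]
        exact pow_mem (mem_zpowers _) j
    have hsub : (Nat.gcd (orderOf σ) k).divisors ⊆ (orderOf σ).divisors :=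
      Nat.divisors_subset_of_dvd hn (Nat.gcd_dvd_left _ _)
    calc ∑ d ∈ (orderOf σ).divisors,
          ArithmeticFunction.moebius d * (if σ ^ k ∈ zpowers (σ ^ d) then 1 else 0)
        = ∑ d ∈ (orderOf σ).divisors,
          (if d ∈ (Nat.gcd (orderOf σ) k).divisors then ArithmeticFunction.moebius d else 0) :=
          Finset.sum_congr rfl fun d hd => by simp only [hiff d hd, mul_ite, mul_one, mul_zero]
      _ = ∑ d ∈ (Nat.gcd (orderOf σ) k).divisors, ArithmeticFunction.moebius d := by
          rw [Finset.sum_ite_mem, Finset.inter_eq_right.mpr hsub]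
      _ = (ArithmeticFunction.zeta * ArithmeticFunction.moebius : ArithmeticFunction ℤ)
            (Nat.gcd (orderOf σ) k) := ArithmeticFunction.coe_zeta_mul_apply.symm
      _ = _ := by
          rw [ArithmeticFunction.coe_zeta_mul_moebius, ArithmeticFunction.one_apply]
          refine if_congr ?_ rfl rfl
          constructor
          · intro h
            refine Subgroup.eq_of_le_of_card_ge (zpowers_le.mpr (pow_mem (mem_zpowers σ) k)) ?_
            rw [Nat.card_zpowers, Nat.card_zpowers, orderOf_pow, h, Nat.div_one]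
          · intro h
            have h2 := congrArg (fun H : Subgroup G => Nat.card H) h
            simp only [Nat.card_zpowers, orderOf_pow] at h2
            have h3 := Nat.div_mul_cancel (Nat.gcd_dvd_left (orderOf σ) k)
            rw [h2] at h3
            exact (mul_eq_left₀ hn).mp h3
  · rw [if_neg fun h : zpowers x = zpowers σ => hx (h ▸ mem_zpowers x)]
    refine Finset.sum_eq_zero fun d _ => ?_
    rw [if_neg fun h => hx (zpowers_le.mpr (pow_mem (mem_zpowers σ) d) h), mul_zero]

end FLTA.Density
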