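/-
Frobenius density theorem for the absolute Galois group of `ℚ`.
-/
import Fermat.Prelude.Def_GaloisRep_Adic
import Fermat.Agent.Density.DegreeOne
import Fermat.Agent.Density.Embeddings
import Fermat.Agent.Density.Mobius

set_option autoImplicit false

noncomputable section

open scoped Pointwise

namespace FLTA.Density

local notation "Qb" => AlgebraicClosure ℚ
local notation "GQ" => AlgebraicClosure ℚ ≃ₐ[ℚ] AlgebraicClosure ℚ

/-- `σ` agrees on `L` with a power of a Frobenius element at a prime outside `S`. -/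
def IsFrobPowOn (L : IntermediateField ℚ Qb) (S : Finset ℕ) (σ : GQ) : Prop :=
  ∃ ℓ : ℕ, ℓ.Prime ∧ ℓ ∉ S ∧ ∃ A : ValuationSubring Qb, A.LiesOverPrime ℓ ∧
    ∃ τ : GQ, A.IsFrobeniusAt τ ℓ ∧ ∃ k : ℕ, ∀ x ∈ L, (τ ^ k) x = σ x

open Filter Topology Subgroup in
open scoped Classical in
/-- The normal case, in a form producing a generator of the cyclic group of `σ`. -/
theorem exists_frobenius_zpowers_eq (L : IntermediateField ℚ Qb) [FiniteDimensional ℚ L]
    [Normal ℚ L] (S : Finset ℕ) (σ : L ≃ₐ[ℚ] L) :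
    ∃ ℓ : ℕ, ℓ.Prime ∧ ℓ ∉ S ∧ ∃ A : ValuationSubring Qb, A.LiesOverPrime ℓ ∧
      ∃ τ : GQ, A.IsFrobeniusAt τ ℓ ∧ zpowers (τ.restrictNormal L) = zpowers σ := by
  haveI hNF : ∀ K : IntermediateField ℚ L, NumberField K := fun K =>
    { to_charZero := inferInstance, to_finiteDimensional := inferInstance }
  have hex := fun d : ℕ =>
    exists_degOneCount_eq_card_fixed (IntermediateField.fixedField (zpowers (σ ^ d)))
  choose S₀ hS₀ using hex
  set n := orderOf σ with hn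
  set S' : Finset ℕ := S ∪ n.divisors.biUnion S₀ with hS'
  by_contra hcon
  push_neg at hcon
  -- the combination of degree-one counts vanishes at every prime outside `S'`
  have hzero : ∀ ℓ : {ℓ : ℕ // ℓ.Prime ∧ ℓ ∉ S'},
      ∑ d ∈ n.divisors, (ArithmeticFunction.moebius d * (Nat.card (zpowers (σ ^ d)) : ℤ)) *
        (degOneCount (IntermediateField.fixedField (zpowers (σ ^ d))) ℓ : ℤ) = 0 := by
    rintro ⟨ℓ, hℓ, hℓS⟩
    rw [hS', Finset.mem_union, not_or] at hℓS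
    obtain ⟨A, hA⟩ := Galois.exists_liesOverPrime (q := ℓ) hℓ
    obtain ⟨τ, hτ⟩ := Galois.exists_isFrobeniusAt hℓ hA
    have h1 : ∀ d ∈ n.divisors,
        (ArithmeticFunction.moebius d * (Nat.card (zpowers (σ ^ d)) : ℤ)) *
          (degOneCount (IntermediateField.fixedField (zpowers (σ ^ d))) ℓ : ℤ) =
        ∑ g : L ≃ₐ[ℚ] L, ArithmeticFunction.moebius d *
          (if g⁻¹ * τ.restrictNormal L * g ∈ zpowers (σ ^ d) then 1 else 0) := by
      intro d hd
      rw [hS₀ d ℓ hℓ (fun h => hℓS.2 (Finset.mem_biUnion.mpr ⟨d, hd, h⟩)) A hA τ hτ,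
        mul_assoc, ← Nat.cast_mul, mul_comm (Nat.card _), card_fixed_mul_card_eq,
        Nat.card_eq_fintype_card, Fintype.card_subtype, ← Finset.mul_sum, Finset.sum_boole]
    rw [Finset.sum_congr rfl h1, Finset.sum_comm]
    refine Finset.sum_eq_zero fun g _ => ?_
    rw [sum_moebius_mem_zpowers, if_neg]
    intro hg
    obtain ⟨g', hg'⟩ := AlgEquiv.restrictNormalHom_surjective (K₁ := L) (E := Qb) g
    refine hcon ℓ hℓ hℓS.1 (g'⁻¹ • A) ((Galois.liesOverPrime_smul_iff _).mpr hA)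
      (g'⁻¹ * τ * g'⁻¹⁻¹) (Galois.isFrobeniusAt_smul g'⁻¹ hτ) ?_
    have : (g'⁻¹ * τ * g'⁻¹⁻¹).restrictNormal L = g⁻¹ * τ.restrictNormal L * g := by
      show AlgEquiv.restrictNormalHom L (g'⁻¹ * τ * g'⁻¹⁻¹) = _
      rw [inv_inv, map_mul, map_mul, map_inv, hg']
      rfl
    rw [this]
    exact hg
  -- but it has positive Dirichlet weight
  let w : ℕ → ℝ := fun d => ((ArithmeticFunction.moebius d * (Nat.card (zpowers (σ ^ d)) : ℤ) : ℤ) : ℝ)
  let T : ℕ → ℝ → ℝ := fun d s => ∑' p : {p : ℕ // p.Prime ∧ p ∉ S'},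
    (degOneCount (IntermediateField.fixedField (zpowers (σ ^ d))) p : ℝ) * (p : ℝ) ^ (-s)
  have hsum : ∀ s : ℝ, 1 < s → ∑ d ∈ n.divisors, w d * T d s = 0 := by
    intro s hs
    simp only [T]
    simp_rw [← tsum_mul_left]
    rw [← Summable.tsum_finsetSum fun d _ => (summable_degOneSum _ S' hs).mul_left (w d)]
    refine (tsum_congr fun p => ?_).trans tsum_zero
    simp_rw [← mul_assoc, ← Finset.sum_mul]
    rw [show (∑ d ∈ n.divisors, w d *
      (degOneCount (IntermediateField.fixedField (zpowers (σ ^ d))) p : ℝ)) = 0 by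
        simp only [w]
        exact_mod_cast hzero p, zero_mul]
  have hlim : Tendsto (fun s : ℝ => ∑ d ∈ n.divisors, w d * (T d s / (-Real.log (s - 1))))
      (𝓝[>] 1) (𝓝 (∑ d ∈ n.divisors, w d * 1)) :=
    tendsto_finsetSum _ fun d _ => (tendsto_degOneSum_div_log _ S').const_mul (w d)
  have hlim0 : Tendsto (fun s : ℝ => ∑ d ∈ n.divisors, w d * (T d s / (-Real.log (s - 1))))
      (𝓝[>] 1) (𝓝 0) := by
    refine tendsto_const_nhds.congr' (eventually_nhdsWithin_of_forall fun s hs => ?_)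
    simp_rw [← mul_div_assoc, ← Finset.sum_div]
    rw [hsum s hs, zero_div]
  have hw := tendsto_nhds_unique hlim hlim0
  have hw' : ∑ d ∈ n.divisors, (ArithmeticFunction.moebius d * (Nat.card (zpowers (σ ^ d)) : ℤ)) =
      ((Finset.univ.filter fun x : L ≃ₐ[ℚ] L => zpowers x = zpowers σ).card : ℤ) := by
    calc _ = ∑ d ∈ n.divisors, ∑ x : L ≃ₐ[ℚ] L, ArithmeticFunction.moebius d *
          (if x ∈ zpowers (σ ^ d) then 1 else 0) := Finset.sum_congr rfl fun d _ => by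
            rw [← Finset.mul_sum, Finset.sum_boole, ← Fintype.card_subtype,
              Nat.card_eq_fintype_card]
      _ = ∑ x : L ≃ₐ[ℚ] L, (if zpowers x = zpowers σ then (1 : ℤ) else 0) := by
            rw [Finset.sum_comm]
            exact Finset.sum_congr rfl fun x _ => sum_moebius_mem_zpowers σ x
      _ = _ := Finset.sum_boole _ _
  simp only [mul_one, w, ← Int.cast_sum, hw', Int.cast_natCast, Nat.cast_eq_zero,
    Finset.card_eq_zero] at hw
  exact Finset.eq_empty_iff_forall_notMem.mp hw σ (by simp)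

/-- The strong form: on `L` a Frobenius element generates the same cyclic group as `σ`. -/
theorem exists_frobenius_generator (L : IntermediateField ℚ Qb) [FiniteDimensional ℚ L]
    (S : Finset ℕ) (σ : GQ) :
    ∃ ℓ : ℕ, ℓ.Prime ∧ ℓ ∉ S ∧ ∃ A : ValuationSubring Qb, A.LiesOverPrime ℓ ∧
      ∃ τ : GQ, A.IsFrobeniusAt τ ℓ ∧ ∃ j k : ℕ,
        (∀ x ∈ L, (τ ^ k) x = σ x) ∧ (∀ x ∈ L, (σ ^ j) x = τ x) := by
  haveI : IsAlgClosure ℚ Qb := ⟨inferInstance, AlgebraicClosure.isAlgebraic ℚ⟩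
  haveI : Normal ℚ Qb := IsAlgClosure.normal ℚ Qb
  let N := IntermediateField.normalClosure ℚ L Qb
  haveI : Normal ℚ N := normalClosure.normal ℚ L Qb
  obtain ⟨ℓ, hℓ, hS, A, hA, τ, hτ, heq⟩ :=
    exists_frobenius_zpowers_eq N S (σ.restrictNormal N)
  have key : ∀ a b : GQ,
      Subgroup.zpowers (a.restrictNormal N) = Subgroup.zpowers (b.restrictNormal N) →
      ∃ k : ℕ, ∀ x ∈ L, (a ^ k) x = b x := by
    intro a b hab
    have hmem : b.restrictNormal N ∈ Subgroup.zpowers (a.restrictNormal N) :=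
      hab ▸ Subgroup.mem_zpowers _
    obtain ⟨k, hk⟩ := (isOfFinOrder_of_finite _).mem_powers_iff_mem_zpowers.mpr hmem
    refine ⟨k, fun x hx => ?_⟩
    have hxN : x ∈ N := L.le_normalClosure hx
    have h1 : (a ^ k).restrictNormal N ⟨x, hxN⟩ = b.restrictNormal N ⟨x, hxN⟩ := by
      show AlgEquiv.restrictNormalHom N (a ^ k) ⟨x, hxN⟩ = _
      rw [map_pow]
      exact congrArg (fun e : N ≃ₐ[ℚ] N => e ⟨x, hxN⟩) hk
    have h2 := congrArg (algebraMap N Qb) h1
    rwa [AlgEquiv.restrictNormal_commutes, AlgEquiv.restrictNormal_commutes] at h2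
  obtain ⟨k, hk⟩ := key τ σ heq
  obtain ⟨j, hj⟩ := key σ τ heq.symm
  exact ⟨ℓ, hℓ, hS, A, hA, τ, hτ, j, k, hk, hj⟩

/-- **Frobenius density theorem.** For a finite extension `L` of `ℚ` and a finite set `S`, every
element of the Galois group agrees on `L` with a power of a Frobenius element at a prime outside
`S`. -/
theorem exists_frobenius_pow_eq (L : IntermediateField ℚ Qb) [FiniteDimensional ℚ L]
    (S : Finset ℕ) (σ : GQ) :
    ∃ ℓ : ℕ, ℓ.Prime ∧ ℓ ∉ S ∧ ∃ A : ValuationSubring Qb, A.LiesOverPrime ℓ ∧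
      ∃ τ : GQ, A.IsFrobeniusAt τ ℓ ∧ ∃ k : ℕ, ∀ x ∈ L, (τ ^ k) x = σ x := by
  obtain ⟨ℓ, hℓ, hS, A, hA, τ, hτ, _, k, hk, _⟩ := exists_frobenius_generator L S σ
  exact ⟨ℓ, hℓ, hS, A, hA, τ, hτ, k, hk⟩

/-- Monoid hom version: a hom factoring through a finite level takes, at every element, a value
which is a power of its value at some Frobenius element outside `S`. -/
theorem exists_frobenius_pow_map_eq {M : Type} [Monoid M] (φ : GQ →* M)
    (hφ : GaloisFactorsThroughFiniteLevel φ) (S : Finset ℕ) (σ : GQ) :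
    ∃ ℓ : ℕ, ℓ.Prime ∧ ℓ ∉ S ∧ ∃ A : ValuationSubring Qb, A.LiesOverPrime ℓ ∧
      ∃ τ : GQ, A.IsFrobeniusAt τ ℓ ∧ ∃ k : ℕ, φ τ ^ k = φ σ := by
  obtain ⟨L, hL, h1⟩ := hφ
  obtain ⟨ℓ, hℓ, hS, A, hA, τ, hτ, k, hk⟩ := exists_frobenius_pow_eq L S σ
  refine ⟨ℓ, hℓ, hS, A, hA, τ, hτ, k, ?_⟩
  have h := h1 (σ⁻¹ * τ ^ k) fun x hx => by
    show σ⁻¹ ((τ ^ k) x) = x
    rw [hk x hx]
    exact σ.symm_apply_apply x
  calc φ τ ^ k = φ σ * φ (σ⁻¹ * τ ^ k) := by rw [← map_mul, mul_inv_cancel_left, map_pow]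
    _ = φ σ := by rw [h, mul_one]

/-- A property closed under powers which holds at Frobenius elements outside `S` holds
everywhere, for homs factoring through a finite level. -/
theorem forall_of_frobenius {M : Type} [Monoid M] (φ : GQ →* M)
    (hφ : GaloisFactorsThroughFiniteLevel φ) (S : Finset ℕ) (P : M → Prop)
    (hpow : ∀ (m : M) (k : ℕ), P m → P (m ^ k))
    (hfrob : ∀ ℓ : ℕ, ℓ.Prime → ℓ ∉ S → ∀ A : ValuationSubring Qb, A.LiesOverPrime ℓ →
      ∀ τ : GQ, A.IsFrobeniusAt τ ℓ → P (φ τ))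
    (σ : GQ) : P (φ σ) := by
  obtain ⟨ℓ, hℓ, hS, A, hA, τ, hτ, k, hk⟩ := exists_frobenius_pow_map_eq φ hφ S σ
  exact hk ▸ hpow _ k (hfrob ℓ hℓ hS A hA τ hτ)

/-- Joint finite level of two homs. -/
theorem galoisFactorsThroughFiniteLevel_prod {M N : Type} [MulOneClass M] [MulOneClass N]
    {φ : GQ →* M} {ψ : GQ →* N} (hφ : GaloisFactorsThroughFiniteLevel φ)
    (hψ : GaloisFactorsThroughFiniteLevel ψ) :
    GaloisFactorsThroughFiniteLevel (φ.prod ψ) := by
  obtain ⟨L₁, h₁, h₁'⟩ := hφ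
  obtain ⟨L₂, h₂, h₂'⟩ := hψ
  refine ⟨L₁ ⊔ L₂, inferInstance, fun σ hσ => ?_⟩
  exact Prod.ext (h₁' σ fun x hx => hσ x (le_sup_left (a := L₁) (b := L₂) hx))
    (h₂' σ fun x hx => hσ x (le_sup_right (a := L₁) (b := L₂) hx))

/-- Adic version: modulo every power of the maximal ideal, every element acts as a power of a
Frobenius element outside `S`. -/
theorem exists_frobenius_pow_sub_mem {A : Type} [CommRing A] [IsLocalRing A] {V : Type}
    [AddCommGroup V] [Module A V] (ρ : GQ →* Module.End A V)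
    (hρ : GaloisActionIsAdicContinuous A ρ) (S : Finset ℕ) (σ : GQ) (n : ℕ) :
    ∃ ℓ : ℕ, ℓ.Prime ∧ ℓ ∉ S ∧ ∃ P : ValuationSubring Qb, P.LiesOverPrime ℓ ∧
      ∃ τ : GQ, P.IsFrobeniusAt τ ℓ ∧ ∃ k : ℕ, ∀ v : V,
        (ρ τ ^ k) v - ρ σ v ∈ (IsLocalRing.maximalIdeal A ^ n) • (⊤ : Submodule A V) := by
  obtain ⟨L, hL, h1⟩ := hρ n
  obtain ⟨ℓ, hℓ, hS, P, hP, τ, hτ, k, hk⟩ := exists_frobenius_pow_eq L S σ
  refine ⟨ℓ, hℓ, hS, P, hP, τ, hτ, k, fun v => ?_⟩
  have h := h1 (σ⁻¹ * τ ^ k) (fun x hx => by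
    show σ⁻¹ ((τ ^ k) x) = x
    rw [hk x hx]
    exact σ.symm_apply_apply x) v
  have hmap : ((IsLocalRing.maximalIdeal A ^ n) • (⊤ : Submodule A V)).map (ρ σ) ≤
      (IsLocalRing.maximalIdeal A ^ n) • (⊤ : Submodule A V) := by
    rw [Submodule.map_smul'']
    exact Submodule.smul_mono le_rfl le_top
  have h2 := hmap (Submodule.mem_map_of_mem h)
  rwa [map_sub, ← Module.End.mul_apply, ← map_mul, mul_inv_cancel_left, map_pow] at h2

end FLTA.Density
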