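/-
Frobenius division density in logarithmic form: sums over primes of class functions which only
depend on the cyclic group generated by the Frobenius element.
-/
import Fermat.Agent.Density.Frobenius

set_option autoImplicit false

noncomputable section

open Subgroup Filter Topology

open scoped Classical

namespace FLTA.Density

local notation "Qb" => AlgebraicClosure ℚ
local notation "GQ" => AlgebraicClosure ℚ ≃ₐ[ℚ] AlgebraicClosure ℚ

theorem exists_bound_degOneSum (F : Type*) [Field F] [NumberField F] (S : Finset ℕ) :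
    ∃ C : ℝ, ∀ᶠ s : ℝ in 𝓝[>] 1,
      |(∑' p : {p : ℕ // p.Prime ∧ p ∉ S}, (degOneCount F p : ℝ) * (p : ℝ) ^ (-s)) -
        Real.log (1 / (s - 1))| ≤ C := by
  obtain ⟨C, hC⟩ := exists_bound_degreeOne_sum F
  refine ⟨C + ∑ p ∈ S, (normCount F p : ℝ), ?_⟩
  filter_upwards [hC, self_mem_nhdsWithin] with s hs (h1 : 1 < s)
  rw [(hasSum_degOneSum F S h1).tsum_eq, sub_right_comm]
  refine (abs_sub _ _).trans (add_le_add hs.2 ?_)
  refine (Finset.abs_sum_le_sum_abs _ _).trans (Finset.sum_le_sum fun p _ => ?_)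
  rw [abs_of_nonneg (Set.indicator_nonneg (fun q _ => by positivity) p)]
  refine Set.indicator_apply_le' (fun hp : p.Prime => ?_) fun _ => by positivity
  exact mul_le_of_le_one_right (by positivity)
    (Real.rpow_le_one_of_one_le_of_nonpos (Nat.one_le_cast.mpr hp.one_lt.le) (by linarith))

theorem sum_moebius_card_zpowers {G : Type*} [Group G] [Fintype G] (σ : G) :
    ∑ d ∈ (orderOf σ).divisors, (ArithmeticFunction.moebius d * (Nat.card (zpowers (σ ^ d)) : ℤ)) =
      ((Finset.univ.filter fun x : G => zpowers x = zpowers σ).card : ℤ) := by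
  calc _ = ∑ d ∈ (orderOf σ).divisors, ∑ x : G, ArithmeticFunction.moebius d *
        (if x ∈ zpowers (σ ^ d) then 1 else 0) := Finset.sum_congr rfl fun d _ => by
          rw [← Finset.mul_sum, Finset.sum_boole, ← Fintype.card_subtype,
            Nat.card_eq_fintype_card]
    _ = ∑ x : G, (if zpowers x = zpowers σ then (1 : ℤ) else 0) := by
          rw [Finset.sum_comm]
          exact Finset.sum_congr rfl fun x _ => sum_moebius_mem_zpowers σ x
    _ = _ := Finset.sum_boole _ _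

/-- Division density, for the Galois group of a finite normal extension. -/
theorem exists_bound_frobenius_sum_restrict (L : IntermediateField ℚ Qb) [FiniteDimensional ℚ L]
    [Normal ℚ L] (f : (L ≃ₐ[ℚ] L) → ℝ) (hconj : ∀ g x, f (x⁻¹ * g * x) = f g)
    (hdiv : ∀ g h, zpowers g = zpowers h → f g = f h) (S : Finset ℕ) :
    ∃ S' : Finset ℕ, S ⊆ S' ∧ ∃ fp : ℕ → ℝ,
      (∀ p : ℕ, p.Prime → p ∉ S' → ∀ A : ValuationSubring Qb, A.LiesOverPrime p →
        ∀ τ : GQ, A.IsFrobeniusAt τ p → f (τ.restrictNormal L) = fp p) ∧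
      ∃ B : ℝ, ∀ᶠ s : ℝ in 𝓝[>] 1,
        Summable (fun p : {p : ℕ // p.Prime ∧ p ∉ S'} => fp p * (p : ℝ) ^ (-s)) ∧
        |(∑' p : {p : ℕ // p.Prime ∧ p ∉ S'}, fp p * (p : ℝ) ^ (-s)) -
          (∑ g, f g) / (Fintype.card (L ≃ₐ[ℚ] L) : ℝ) * Real.log (1 / (s - 1))| ≤ B := by
  have hNF : ∀ K : IntermediateField ℚ L, NumberField K := fun K =>
    { to_charZero := inferInstance, to_finiteDimensional := inferInstance }
  have hex := fun σd : (L ≃ₐ[ℚ] L) × ℕ =>
    exists_degOneCount_eq_card_fixed (IntermediateField.fixedField (zpowers (σd.1 ^ σd.2)))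
  choose S₀ hS₀ using hex
  set I := Finset.univ.sigma fun σ : L ≃ₐ[ℚ] L => (orderOf σ).divisors with hI
  set S' : Finset ℕ := S ∪ I.biUnion fun x => S₀ (x.1, x.2) with hS'
  set gen : (L ≃ₐ[ℚ] L) → ℕ := fun σ =>
    (Finset.univ.filter fun x : L ≃ₐ[ℚ] L => zpowers x = zpowers σ).card with hgen
  have hgen0 : ∀ σ, (gen σ : ℝ) ≠ 0 := fun σ => Nat.cast_ne_zero.mpr
    (Finset.card_ne_zero_of_mem (a := σ) (by simp))
  set w : (Σ _ : L ≃ₐ[ℚ] L, ℕ) → ℝ := fun x =>
    f x.1 / ((gen x.1 : ℝ) * (Fintype.card (L ≃ₐ[ℚ] L) : ℝ)) *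
      ((ArithmeticFunction.moebius x.2 * (Nat.card (zpowers (x.1 ^ x.2)) : ℤ) : ℤ) : ℝ) with hw
  let deg : (Σ _ : L ≃ₐ[ℚ] L, ℕ) → ℕ → ℕ := fun x =>
    degOneCount (IntermediateField.fixedField (zpowers (x.1 ^ x.2)))
  refine ⟨S', Finset.subset_union_left, fun p => ∑ x ∈ I, w x * deg x p,
    fun p hp hpS A hA τ hτ => ?_, ?_⟩
  · -- the formula at every Frobenius element
    rw [hS', Finset.mem_union, not_or] at hpS
    set t := τ.restrictNormal L
    have h1 : ∀ σ : L ≃ₐ[ℚ] L, ∑ d ∈ (orderOf σ).divisors,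
        ((ArithmeticFunction.moebius d * (Nat.card (zpowers (σ ^ d)) : ℤ)) *
          (deg ⟨σ, d⟩ p : ℤ)) =
        ∑ g : L ≃ₐ[ℚ] L, (if zpowers (g⁻¹ * t * g) = zpowers σ then (1 : ℤ) else 0) := by
      intro σ
      have h2 : ∀ d ∈ (orderOf σ).divisors,
          (ArithmeticFunction.moebius d * (Nat.card (zpowers (σ ^ d)) : ℤ)) * (deg ⟨σ, d⟩ p : ℤ) =
          ∑ g : L ≃ₐ[ℚ] L, ArithmeticFunction.moebius d *
            (if g⁻¹ * t * g ∈ zpowers (σ ^ d) then 1 else 0) := by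
        intro d hd
        simp only [deg]
        rw [hS₀ (σ, d) p hp (fun h => hpS.2 (Finset.mem_biUnion.mpr
            ⟨⟨σ, d⟩, Finset.mem_sigma.mpr ⟨Finset.mem_univ _, hd⟩, h⟩)) A hA τ hτ,
          mul_assoc, ← Nat.cast_mul, mul_comm (Nat.card _), card_fixed_mul_card_eq,
          Nat.card_eq_fintype_card, Fintype.card_subtype, ← Finset.mul_sum, Finset.sum_boole]
      rw [Finset.sum_congr rfl h2, Finset.sum_comm]
      exact Finset.sum_congr rfl fun g _ => sum_moebius_mem_zpowers σ _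
    symm
    calc ∑ x ∈ I, w x * deg x p
        = ∑ σ : L ≃ₐ[ℚ] L, f σ / ((gen σ : ℝ) * (Fintype.card (L ≃ₐ[ℚ] L) : ℝ)) *
            ((∑ d ∈ (orderOf σ).divisors,
              ((ArithmeticFunction.moebius d * (Nat.card (zpowers (σ ^ d)) : ℤ)) *
                (deg ⟨σ, d⟩ p : ℤ)) : ℤ) : ℝ) := by
          rw [hI, Finset.sum_sigma]
          refine Finset.sum_congr rfl fun σ _ => ?_
          push_cast
          rw [Finset.mul_sum]
          refine Finset.sum_congr rfl fun d _ => ?_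
          simp only [hw]
          push_cast
          ring
      _ = ∑ g : L ≃ₐ[ℚ] L, ∑ σ ∈ Finset.univ.filter
            (fun σ => zpowers (g⁻¹ * t * g) = zpowers σ),
              f σ / ((gen σ : ℝ) * (Fintype.card (L ≃ₐ[ℚ] L) : ℝ)) := by
          simp only [h1, Int.cast_sum, Finset.mul_sum]
          rw [Finset.sum_comm]
          refine Finset.sum_congr rfl fun g _ => ?_
          rw [Finset.sum_filter]
          refine Finset.sum_congr rfl fun σ _ => ?_
          split_ifs <;> simp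
      _ = ∑ _g : L ≃ₐ[ℚ] L, f t / (Fintype.card (L ≃ₐ[ℚ] L) : ℝ) := by
          refine Finset.sum_congr rfl fun g _ => ?_
          have h3 : ∀ σ ∈ Finset.univ.filter
              (fun σ => zpowers (g⁻¹ * t * g) = zpowers σ),
              f σ / ((gen σ : ℝ) * (Fintype.card (L ≃ₐ[ℚ] L) : ℝ)) =
                f t / ((gen (g⁻¹ * t * g) : ℝ) * (Fintype.card (L ≃ₐ[ℚ] L) : ℝ)) := by
            intro σ hσ
            have h := (Finset.mem_filter.mp hσ).2
            rw [← hdiv _ _ h, hconj, show gen σ = gen (g⁻¹ * t * g) by simp only [hgen, h]]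
          rw [Finset.sum_congr rfl h3, Finset.sum_const, nsmul_eq_mul]
          have h4 : ((Finset.univ.filter fun σ => zpowers (g⁻¹ * t * g) = zpowers σ).card : ℝ) =
              (gen (g⁻¹ * t * g) : ℝ) := by
            simp only [hgen, eq_comm]
          rw [h4]
          field_simp [hgen0]
      _ = f t := by
          rw [Finset.sum_const, Finset.card_univ, nsmul_eq_mul]
          field_simp
  · choose C hC using fun x : (Σ _ : L ≃ₐ[ℚ] L, ℕ) =>
      exists_bound_degOneSum (IntermediateField.fixedField (zpowers (x.1 ^ x.2))) S'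
    refine ⟨∑ x ∈ I, |w x| * C x, ?_⟩
    filter_upwards [(I.eventually_all).mpr fun x _ => hC x, self_mem_nhdsWithin] with s hs
      (h1 : 1 < s)
    have hsum : ∀ x : (Σ _ : L ≃ₐ[ℚ] L, ℕ), Summable fun p : {p : ℕ // p.Prime ∧ p ∉ S'} =>
        w x * ((deg x p : ℝ) * (p : ℝ) ^ (-s)) :=
      fun x => (summable_degOneSum _ S' h1).mul_left _
    have heq : (fun p : {p : ℕ // p.Prime ∧ p ∉ S'} =>
        (∑ x ∈ I, w x * deg x p) * (p : ℝ) ^ (-s)) =
        fun p : {p : ℕ // p.Prime ∧ p ∉ S'} => ∑ x ∈ I, w x * ((deg x p : ℝ) * (p : ℝ) ^ (-s)) := by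
      funext p
      simp only [Finset.sum_mul, mul_assoc]
    rw [heq]
    refine ⟨summable_sum fun x _ => hsum x, ?_⟩
    rw [Summable.tsum_finsetSum fun x _ => hsum x]
    have hwsum : ∑ x ∈ I, w x = (∑ g, f g) / (Fintype.card (L ≃ₐ[ℚ] L) : ℝ) := by
      rw [hI, Finset.sum_sigma, Finset.sum_div]
      refine Finset.sum_congr rfl fun σ _ => ?_
      simp only [hw]
      rw [← Finset.mul_sum, ← Int.cast_sum, sum_moebius_card_zpowers, Int.cast_natCast]
      field_simp [hgen0]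
      simp only [hgen]
    rw [← hwsum, Finset.sum_mul, ← Finset.sum_sub_distrib]
    refine (Finset.abs_sum_le_sum_abs _ _).trans (Finset.sum_le_sum fun x hx => ?_)
    rw [tsum_mul_left, ← mul_sub, abs_mul]
    exact mul_le_mul_of_nonneg_left (hs x hx) (abs_nonneg _)

/-- **Division density** in logarithmic form. If `f` only depends on the conjugacy class of the
cyclic group generated by an element, then its sum over Frobenius elements, weighted by `p ^ (-s)`,
is the average of `f` times `log (1 / (s - 1))`, up to a bounded error. -/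
theorem exists_bound_frobenius_sum {G : Type} [Group G] [Fintype G] (φ : GQ →* G)
    (hφ : GaloisFactorsThroughFiniteLevel φ) (hsurj : Function.Surjective φ) (f : G → ℝ)
    (hconj : ∀ g x, f (x⁻¹ * g * x) = f g) (hdiv : ∀ g h, zpowers g = zpowers h → f g = f h)
    (S : Finset ℕ) :
    ∃ S' : Finset ℕ, S ⊆ S' ∧ ∃ fp : ℕ → ℝ,
      (∀ p : ℕ, p.Prime → p ∉ S' → ∀ A : ValuationSubring Qb, A.LiesOverPrime p →
        ∀ τ : GQ, A.IsFrobeniusAt τ p → f (φ τ) = fp p) ∧
      ∃ B : ℝ, ∀ᶠ s : ℝ in 𝓝[>] 1,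
        Summable (fun p : {p : ℕ // p.Prime ∧ p ∉ S'} => fp p * (p : ℝ) ^ (-s)) ∧
        |(∑' p : {p : ℕ // p.Prime ∧ p ∉ S'}, fp p * (p : ℝ) ^ (-s)) -
          (∑ g, f g) / (Fintype.card G : ℝ) * Real.log (1 / (s - 1))| ≤ B := by
  obtain ⟨L₀, hL₀, h0⟩ := hφ
  have : IsAlgClosure ℚ Qb := ⟨inferInstance, AlgebraicClosure.isAlgebraic ℚ⟩
  have : Normal ℚ Qb := IsAlgClosure.normal ℚ Qb
  let N := IntermediateField.normalClosure ℚ L₀ Qb
  haveI : Normal ℚ N := normalClosure.normal ℚ L₀ Qb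
  have hsur : Function.Surjective (AlgEquiv.restrictNormalHom N : GQ →* (N ≃ₐ[ℚ] N)) :=
    AlgEquiv.restrictNormalHom_surjective Qb
  have hker : (AlgEquiv.restrictNormalHom N : GQ →* (N ≃ₐ[ℚ] N)).ker ≤ φ.ker := by
    intro σ hσ
    refine MonoidHom.mem_ker.mpr (h0 σ fun x hx => ?_)
    have h2 := AlgEquiv.restrictNormal_commutes σ N ⟨x, L₀.le_normalClosure hx⟩
    have h3 : σ.restrictNormal N = 1 := hσ
    rw [h3] at h2
    exact h2.symm
  let ψ : (N ≃ₐ[ℚ] N) →* G := MonoidHom.liftOfSurjective _ hsur ⟨φ, hker⟩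
  have hψ : ∀ σ : GQ, ψ (σ.restrictNormal N) = φ σ := fun σ =>
    MonoidHom.liftOfRightInverse_comp_apply _ _ _ ⟨φ, hker⟩ σ
  obtain ⟨S', hS', fp, hfp, B, hB⟩ := exists_bound_frobenius_sum_restrict N (fun x => f (ψ x))
    (fun g x => by simp only [map_mul, map_inv, hconj])
    (fun g h hgh => hdiv _ _ (by rw [← MonoidHom.map_zpowers, hgh, MonoidHom.map_zpowers])) S
  refine ⟨S', hS', fp, fun p hp hpS A hA τ hτ => ?_, B, ?_⟩
  · rw [← hψ]; exact hfp p hp hpS A hA τ hτ
  · suffices h : (∑ x, f (ψ x)) / (Fintype.card (N ≃ₐ[ℚ] N) : ℝ) =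
        (∑ g, f g) / (Fintype.card G : ℝ) by
      rw [← h]; exact hB
    have h1 : ∀ g : G, ∑ x, f (ψ x * g) = ∑ x, f (ψ x) := by
      intro g
      obtain ⟨σ, rfl⟩ := hsurj g
      rw [← hψ]
      simp only [← map_mul]
      exact Fintype.sum_equiv (Equiv.mulRight (σ.restrictNormal N)) _ _ fun x => rfl
    have h2 : ∑ x : N ≃ₐ[ℚ] N, ∑ g : G, f (ψ x * g) =
        (Fintype.card (N ≃ₐ[ℚ] N) : ℝ) * ∑ g, f g := by
      rw [← Finset.card_univ, ← nsmul_eq_mul, ← Finset.sum_const]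
      exact Finset.sum_congr rfl fun x _ =>
        Fintype.sum_equiv (Equiv.mulLeft (ψ x)) _ _ fun g => rfl
    rw [Finset.sum_comm, Finset.sum_congr rfl fun g _ => h1 g, Finset.sum_const, nsmul_eq_mul,
      Finset.card_univ] at h2
    field_simp
    linarith [h2]

end FLTA.Density
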