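import Mathlib.NumberTheory.NumberField.Basic
import Mathlib.RingTheory.Ideal.Norm.AbsNorm
import Mathlib.RingTheory.DedekindDomain.Ideal.Lemmas

/-!
# Counting ideals of given norm: multiplicativity and bound on prime powers
-/

set_option autoImplicit false

noncomputable section

open Ideal NumberField UniqueFactorizationMonoid

namespace FLTA.Density

variable (K : Type*) [Field K] [NumberField K]

/-- Number of ideals of absolute norm `n` in the ring of integers of `K`. -/
def normCount (n : ℕ) : ℕ := Nat.card {I : Ideal (𝓞 K) // absNorm I = n}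

theorem finite_normSubtype (n : ℕ) : Finite {I : Ideal (𝓞 K) // absNorm I = n} :=
  (Ideal.finite_setOfPred_absNorm_eq n).to_subtype

theorem normCount_one : normCount K 1 = 1 := by
  rw [normCount, Nat.card_eq_one_iff_unique]
  refine ⟨⟨fun I J => Subtype.ext ?_⟩, ⟨⟨⊤, absNorm_top⟩⟩⟩
  rw [absNorm_eq_one_iff.mp I.2, absNorm_eq_one_iff.mp J.2]

variable {K}

theorem sup_mul_sup_eq {m n : ℕ} (h : m.Coprime n) (I : Ideal (𝓞 K)) (hI : absNorm I = m * n) :
    (I ⊔ span {(m : 𝓞 K)}) * (I ⊔ span {(n : 𝓞 K)}) = I := by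
  have htop : span {(m : 𝓞 K)} ⊔ span {(n : 𝓞 K)} = ⊤ := by
    rw [← Ideal.isCoprime_iff_sup_eq, Ideal.isCoprime_span_singleton_iff]
    exact h.cast
  have hmn : span {(m : 𝓞 K)} * span {(n : 𝓞 K)} ≤ I := by
    rw [span_singleton_mul_span_singleton, span_singleton_le_iff_mem, ← Nat.cast_mul, ← hI]
    exact absNorm_mem I
  apply le_antisymm
  · rw [Ideal.sup_mul, Ideal.mul_sup, Ideal.mul_sup]
    exact sup_le (sup_le Ideal.mul_le_left Ideal.mul_le_left)
      (sup_le Ideal.mul_le_right hmn)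
  · rw [Ideal.mul_eq_inf_of_coprime]
    · exact le_inf le_sup_left le_sup_left
    · exact top_le_iff.mp (htop.ge.trans (sup_le_sup le_sup_right le_sup_right))

theorem absNorm_sup_dvd_pow (I : Ideal (𝓞 K)) (m : ℕ) :
    absNorm (I ⊔ span {(m : 𝓞 K)}) ∣ m ^ Module.finrank ℤ (𝓞 K) := by
  rw [← absNorm_span_natCast (S := 𝓞 K) m]
  exact absNorm_dvd_absNorm_of_le le_sup_right

theorem absNorm_sup_eq {m n : ℕ} (h : m.Coprime n) (I : Ideal (𝓞 K)) (hI : absNorm I = m * n) :
    absNorm (I ⊔ span {(m : 𝓞 K)}) = m ∧ absNorm (I ⊔ span {(n : 𝓞 K)}) = n := by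
  set a := absNorm (I ⊔ span {(m : 𝓞 K)})
  set b := absNorm (I ⊔ span {(n : 𝓞 K)})
  have hab : a * b = m * n := by rw [← map_mul, sup_mul_sup_eq h I hI, hI]
  have hbm : b.Coprime m :=
    Nat.Coprime.coprime_dvd_left (absNorm_sup_dvd_pow I n) (h.symm.pow_left _)
  have han : a.Coprime n :=
    Nat.Coprime.coprime_dvd_left (absNorm_sup_dvd_pow I m) (h.pow_left _)
  have h1 : a ∣ m := han.dvd_of_dvd_mul_right (hab ▸ dvd_mul_right a b)
  have h2 : b ∣ n := hbm.dvd_of_dvd_mul_left (hab ▸ dvd_mul_left b a)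
  have h3 : m ∣ a := hbm.symm.dvd_of_dvd_mul_right (hab.symm ▸ dvd_mul_right m n)
  have h4 : n ∣ b := han.symm.dvd_of_dvd_mul_left (hab.symm ▸ dvd_mul_left n m)
  exact ⟨Nat.dvd_antisymm h1 h3, Nat.dvd_antisymm h2 h4⟩

theorem mul_sup_span_eq {m n : ℕ} (h : m.Coprime n) {J₁ J₂ : Ideal (𝓞 K)}
    (h₁ : absNorm J₁ = m) (h₂ : absNorm J₂ = n) : J₁ * J₂ ⊔ span {(m : 𝓞 K)} = J₁ := by
  have hm : span {(m : 𝓞 K)} ≤ J₁ := h₁ ▸ span_singleton_absNorm_le J₁
  have hn : span {(n : 𝓞 K)} ≤ J₂ := h₂ ▸ span_singleton_absNorm_le J₂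
  have htop : J₂ ⊔ span {(m : 𝓞 K)} = ⊤ := by
    have : span {(n : 𝓞 K)} ⊔ span {(m : 𝓞 K)} = ⊤ := by
      rw [← Ideal.isCoprime_iff_sup_eq, Ideal.isCoprime_span_singleton_iff]
      exact h.symm.cast
    exact top_le_iff.mp (this.ge.trans (sup_le_sup_right hn _))
  refine le_antisymm (sup_le Ideal.mul_le_left hm) ?_
  calc J₁ = J₁ * (J₂ ⊔ span {(m : 𝓞 K)}) := by rw [htop, Ideal.mul_top]
    _ ≤ _ := by
      rw [Ideal.mul_sup]
      exact sup_le_sup_left Ideal.mul_le_right _

variable (K)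

theorem normCount_mul {m n : ℕ} (h : m.Coprime n) :
    normCount K (m * n) = normCount K m * normCount K n := by
  rw [normCount, normCount, normCount, ← Nat.card_prod]
  refine Nat.card_congr
    { toFun := fun I => (⟨I.1 ⊔ span {(m : 𝓞 K)}, (absNorm_sup_eq h I.1 I.2).1⟩,
        ⟨I.1 ⊔ span {(n : 𝓞 K)}, (absNorm_sup_eq h I.1 I.2).2⟩)
      invFun := fun J => ⟨J.1.1 * J.2.1, by rw [map_mul, J.1.2, J.2.2]⟩
      left_inv := fun I => Subtype.ext (sup_mul_sup_eq h I.1 I.2)
      right_inv := fun J => Prod.ext (Subtype.ext (mul_sup_span_eq h J.1.2 J.2.2))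
        (Subtype.ext (by
          show J.1.1 * J.2.1 ⊔ span {(n : 𝓞 K)} = J.2.1
          rw [mul_comm]; exact mul_sup_span_eq h.symm J.2.2 J.1.2)) }

theorem card_normalizedFactors_span_prime_le {p : ℕ} (hp : p.Prime) :
    Multiset.card (normalizedFactors (span {(p : 𝓞 K)})) ≤ Module.finrank ℤ (𝓞 K) := by
  set M := normalizedFactors (span {(p : 𝓞 K)})
  have h0 : span {(p : 𝓞 K)} ≠ ⊥ := by simp [hp.ne_zero]
  have hprod : (M.map absNorm).prod = p ^ Module.finrank ℤ (𝓞 K) := by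
    rw [← map_multiset_prod, Ideal.prod_normalizedFactors_eq_self h0, absNorm_span_natCast]
  have hge : ∀ x ∈ M.map absNorm, p ≤ x := by
    intro x hx
    obtain ⟨P, hP, rfl⟩ := Multiset.mem_map.mp hx
    have hdvd : absNorm P ∣ p ^ Module.finrank ℤ (𝓞 K) :=
      hprod ▸ Multiset.dvd_prod (Multiset.mem_map_of_mem _ hP)
    obtain ⟨i, -, hi⟩ := (Nat.dvd_prime_pow hp).mp hdvd
    have hPprime := prime_of_normalized_factor P hP
    have hne : absNorm P ≠ 1 := fun h => hPprime.not_isUnit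
      (Ideal.isUnit_iff.mpr (absNorm_eq_one_iff.mp h))
    rw [hi] at hne ⊢
    exact Nat.le_self_pow (fun h => hne (by rw [h, pow_zero])) p
  have := Multiset.pow_card_le_prod hge
  rw [Multiset.card_map, hprod] at this
  exact (Nat.pow_le_pow_iff_right hp.one_lt).mp this

theorem normCount_prime_pow_le {p : ℕ} (hp : p.Prime) (k : ℕ) :
    normCount K (p ^ k) ≤ (k * Module.finrank ℤ (𝓞 K) + 1) ^ Module.finrank ℤ (𝓞 K) := by
  classical
  set d := Module.finrank ℤ (𝓞 K)
  set M := normalizedFactors (span {(p : 𝓞 K)})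
  have hMd : Multiset.card M ≤ d := card_normalizedFactors_span_prime_le K hp
  have hle : ∀ I : {I : Ideal (𝓞 K) // absNorm I = p ^ k},
      I.1 ≠ ⊥ ∧ normalizedFactors I.1 ≤ k • M := by
    intro I
    have h0 : I.1 ≠ ⊥ := fun h => by
      have := I.2
      rw [h, absNorm_bot] at this
      exact pow_ne_zero k hp.ne_zero this.symm
    refine ⟨h0, ?_⟩
    rw [← normalizedFactors_pow, ← dvd_iff_normalizedFactors_le_normalizedFactors h0
      (pow_ne_zero _ (by simp [hp.ne_zero])), span_singleton_pow, Ideal.dvd_span_singleton,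
      ← Nat.cast_pow]
    have := absNorm_mem I.1
    rwa [I.2] at this
  have hcount : ∀ (I : {I : Ideal (𝓞 K) // absNorm I = p ^ k}) (P : Ideal (𝓞 K)),
      Multiset.count P (normalizedFactors I.1) < k * d + 1 := by
    intro I P
    refine Nat.lt_succ_of_le ((Multiset.count_le_of_le P (hle I).2).trans ?_)
    rw [Multiset.count_nsmul]
    exact Nat.mul_le_mul_left _ ((Multiset.count_le_card _ _).trans hMd)
  let Φ : {I : Ideal (𝓞 K) // absNorm I = p ^ k} → (M.toFinset → Fin (k * d + 1)) :=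
    fun I P => ⟨_, hcount I P.1⟩
  have hinj : Function.Injective Φ := by
    intro I J hIJ
    have : normalizedFactors I.1 = normalizedFactors J.1 := by
      ext P
      by_cases hP : P ∈ M.toFinset
      · exact congrArg Fin.val (congrFun hIJ ⟨P, hP⟩)
      · have hnot : ∀ L : {I : Ideal (𝓞 K) // absNorm I = p ^ k}, P ∉ normalizedFactors L.1 :=
          fun L hL => hP (Multiset.mem_toFinset.mpr
            (Multiset.mem_of_mem_nsmul (Multiset.mem_of_le (hle L).2 hL)))
        rw [Multiset.count_eq_zero_of_notMem (hnot I), Multiset.count_eq_zero_of_notMem (hnot J)]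
    refine Subtype.ext ?_
    rw [← Ideal.prod_normalizedFactors_eq_self (hle I).1, this, Ideal.prod_normalizedFactors_eq_self (hle J).1]
  refine (Nat.card_le_card_of_injective Φ hinj).trans ?_
  simp only [Nat.card_eq_fintype_card, Fintype.card_fun, Fintype.card_fin, Fintype.card_coe]
  exact Nat.pow_le_pow_right (Nat.succ_pos _) ((Multiset.toFinset_card_le M).trans hMd)

end FLTA.Density
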