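import Fermat.Prelude.Def_GaloisRep_Residual
import Fermat.Agent.Density.Frobenius
import Fermat.Agent.Galois.Cyclotomic
import Mathlib.LinearAlgebra.Eigenspace.Zero
import Mathlib.FieldTheory.PrimitiveElement

/-!
# Frobenius elements inheriting the properties needed for Taylor-Wiles primes

If `σ` fixes a primitive `N`-th root of unity, has two distinct eigenvalues and a cocycle `x` with
`x σ ∉ (σ - 1) M`, then so does some Frobenius element at a prime outside a given finite set.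
-/

set_option autoImplicit false

noncomputable section

open Polynomial

namespace FLTA.Density

local notation "Qb" => AlgebraicClosure ℚ
local notation "GQ" => AlgebraicClosure ℚ ≃ₐ[ℚ] AlgebraicClosure ℚ

/-- If a power of `g` has two distinct eigenvalues then so does `g`. -/
theorem ne_of_charpoly_pow {k V : Type*} [Field k] [AddCommGroup V] [Module k V]
    [FiniteDimensional k V] (g : Module.End k V) (n : ℕ) {α β a b : k} (hαβ : α ≠ β)
    (hg : LinearMap.charpoly g = (X - C a) * (X - C b))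
    (hf : LinearMap.charpoly (g ^ n) = (X - C α) * (X - C β)) : a ≠ b := by
  rintro rfl
  set q : k[X] := X ^ n - C (a ^ n)
  have hq : aeval g q = g ^ n - algebraMap k (Module.End k V) (a ^ n) := by simp [q]
  have hdvd : (X - C a) * (X - C a) ∣ q * q := by
    have : X - C a ∣ q := by
      rw [dvd_iff_isRoot]
      simp [q]
    exact mul_dvd_mul this this
  have hzero : aeval g (q * q) = 0 := by
    obtain ⟨r, hr⟩ := hdvd
    rw [hr, map_mul, ← hg, LinearMap.aeval_self_charpoly, zero_mul]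
  have key : ∀ γ : k, IsRoot ((X - C α) * (X - C β)) γ → γ = a ^ n := by
    intro γ hγ
    rw [← hf, ← Module.End.hasEigenvalue_iff_isRoot_charpoly] at hγ
    obtain ⟨v, hv⟩ := hγ.exists_hasEigenvector
    have h1 : ∀ c : k, (g ^ n - algebraMap k (Module.End k V) c) v = (γ - c) • v := by
      intro c
      rw [LinearMap.sub_apply, Module.algebraMap_end_apply, hv.apply_eq_smul, sub_smul]
    have h2 : (aeval g (q * q)) v = ((γ - a ^ n) * (γ - a ^ n)) • v := by
      rw [map_mul, hq, Module.End.mul_apply, h1, map_smul, h1, smul_smul]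
    rw [hzero, LinearMap.zero_apply, eq_comm, smul_eq_zero_iff_left hv.2, mul_self_eq_zero,
      sub_eq_zero] at h2
    exact h2
  exact hαβ ((key α (by simp)).trans (key β (by simp)).symm)

/-- A cocycle which is a coboundary at `g` is one at every power of `g`. -/
theorem cocycle_pow_eq {G M : Type*} [Monoid G] [AddCommGroup M] (act : G →* AddMonoid.End M)
    (x : G → M) (hx : ∀ g h, x (g * h) = x g + act g (x h)) {g : G} {m : M}
    (hm : x g = act g m - m) (n : ℕ) : x (g ^ n) = act (g ^ n) m - m := by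
  induction n with
  | zero =>
    have h1 := hx 1 1
    rw [one_mul, map_one, AddMonoid.End.coe_one, id_eq, right_eq_add] at h1
    rw [pow_zero, map_one, h1, AddMonoid.End.coe_one, id_eq, sub_self]
  | succ n ih =>
    rw [pow_succ, hx, ih, hm, map_sub, map_mul, AddMonoid.End.coe_mul, Function.comp_apply]
    abel

theorem apply_congr_of_factors {M : Type} [Monoid M] {φ : GQ →* M}
    {L : IntermediateField ℚ Qb} (hL : ∀ σ : GQ, (∀ x ∈ L, σ x = x) → φ σ = 1) {g h : GQ}
    (hgh : ∀ x ∈ L, g x = h x) : φ g = φ h := by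
  have h1 := hL (h⁻¹ * g) fun x hx => by
    show h⁻¹ (g x) = x
    rw [hgh x hx]
    exact h.symm_apply_apply x
  calc φ g = φ h * φ (h⁻¹ * g) := by rw [← map_mul, mul_inv_cancel_left]
    _ = φ h := by rw [h1, mul_one]

/-- For a representation unramified at `ℓ`, all Frobenius elements over `ℓ` have the same
characteristic polynomial. -/
theorem charpoly_isFrobeniusAt_eq {k : Type} [Field k] {V : Type} [AddCommGroup V]
    [Module k V] [FiniteDimensional k V] (φ : GQ →* Module.End k V) {ℓ : ℕ} (hℓ : ℓ.Prime)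
    (hur : ∀ A : ValuationSubring Qb, A.LiesOverPrime ℓ → ∀ s ∈ A.inertiaSubgroupIn ℚ, φ s = 1)
    {A B : ValuationSubring Qb} (hA : A.LiesOverPrime ℓ) (hB : B.LiesOverPrime ℓ) {σ τ : GQ}
    (hσ : A.IsFrobeniusAt σ ℓ) (hτ : B.IsFrobeniusAt τ ℓ) :
    LinearMap.charpoly (φ σ) = LinearMap.charpoly (φ τ) := by
  obtain ⟨g, rfl⟩ := Galois.exists_smul_eq hℓ hA hB
  have h := hur _ hB _ (Galois.isFrobeniusAt_inv_mul_mem_inertia (Galois.isFrobeniusAt_smul g hσ) hτ)
  have hτeq : φ τ = φ g * φ σ * φ g⁻¹ := by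
    calc φ τ = φ (g * σ * g⁻¹) * φ ((g * σ * g⁻¹)⁻¹ * τ) := by
          rw [← map_mul, mul_inv_cancel_left]
      _ = _ := by rw [h, mul_one, map_mul, map_mul]
  let u : V ≃ₗ[k] V := LinearMap.GeneralLinearGroup.toLinearEquiv
    (⟨φ g, φ g⁻¹, by rw [← map_mul, mul_inv_cancel, map_one],
      by rw [← map_mul, inv_mul_cancel, map_one]⟩ : (Module.End k V)ˣ)
  rw [hτeq, ← LinearEquiv.charpoly_conj u (φ σ)]
  rfl

/-- **Taylor-Wiles element.** A Frobenius element outside `S`, at a prime `ℓ ≡ 1` modulo `N`,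
with distinct eigenvalues and on which the cocycle `x` is not a coboundary. -/
theorem exists_frobenius_taylorWiles {k : Type} [Field k] {V : Type} [AddCommGroup V]
    [Module k V] [FiniteDimensional k V] (φ : GQ →* Module.End k V)
    (hφ : GaloisFactorsThroughFiniteLevel φ)
    (hsplit : ∀ g : GQ, ∃ a b : k, LinearMap.charpoly (φ g) = (X - C a) * (X - C b))
    {M : Type} [AddCommGroup M] (act : GQ →* AddMonoid.End M)
    (hact : GaloisFactorsThroughFiniteLevel act)
    (x : GQ → M) (hx : ∀ g h, x (g * h) = x g + act g (x h))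
    (hxlev : ∃ F : IntermediateField ℚ Qb, FiniteDimensional ℚ F ∧
      ∀ g s : GQ, s ∈ F.fixingSubgroup → x (g * s) = x g)
    {N : ℕ} [NeZero N] {ζ : Qb} (hζ : IsPrimitiveRoot ζ N)
    (σ : GQ) (hσζ : σ ζ = ζ)
    (hσeig : ∃ α β : k, α ≠ β ∧ LinearMap.charpoly (φ σ) = (X - C α) * (X - C β))
    (hσx : ¬ ∃ m : M, x σ = act σ m - m) (S : Finset ℕ) :
    ∃ ℓ : ℕ, ℓ.Prime ∧ ℓ ∉ S ∧ N ∣ ℓ - 1 ∧ ∃ A : ValuationSubring Qb, A.LiesOverPrime ℓ ∧
      ∃ τ : GQ, A.IsFrobeniusAt τ ℓ ∧ τ ζ = ζ ∧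
        (∃ a b : k, a ≠ b ∧ LinearMap.charpoly (φ τ) = (X - C a) * (X - C b)) ∧
        ¬ ∃ m : M, x τ = act τ m - m := by
  obtain ⟨L₁, hL₁, hφ'⟩ := hφ
  obtain ⟨L₂, hL₂, hact'⟩ := hact
  obtain ⟨F, hF, hx'⟩ := hxlev
  have : FiniteDimensional ℚ (IntermediateField.adjoin ℚ {ζ}) :=
    IntermediateField.adjoin.finiteDimensional (Algebra.IsIntegral.isIntegral ζ)
  set L := L₁ ⊔ L₂ ⊔ F ⊔ IntermediateField.adjoin ℚ {ζ}
  have le1 : L₁ ≤ L := le_sup_of_le_left (le_sup_of_le_left le_sup_left)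
  have le2 : L₂ ≤ L := le_sup_of_le_left (le_sup_of_le_left le_sup_right)
  have le3 : F ≤ L := le_sup_of_le_left le_sup_right
  have hζL : ζ ∈ L := le_sup_right (a := L₁ ⊔ L₂ ⊔ F) (IntermediateField.mem_adjoin_simple_self ℚ ζ)
  obtain ⟨ℓ, hℓ, hℓS, A, hA, τ, hτ, j, n, hn, hj⟩ :=
    exists_frobenius_generator L (S ∪ N.primeFactors) σ
  rw [Finset.notMem_union] at hℓS
  have hfix : ∀ (g : GQ) (i : ℕ), g ζ = ζ → (g ^ i) ζ = ζ := by
    intro g i hg
    induction i with
    | zero => rfl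
    | succ i ih => rw [pow_succ', AlgEquiv.mul_apply, ih, hg]
  have hτζ : τ ζ = ζ := by rw [← hj ζ hζL]; exact hfix σ j hσζ
  have hdvd : N ∣ ℓ - 1 := by
    have hnd : ¬ ℓ ∣ N := fun h =>
      hℓS.2 (Nat.mem_primeFactors.mpr ⟨hℓ, h, NeZero.ne N⟩)
    have h := Galois.frobenius_apply_rootOfUnity hℓ hA hτ hnd hζ.pow_eq_one
    rw [hτζ] at h
    refine (hζ.pow_eq_one_iff_dvd _).mp (mul_left_cancel₀ (hζ.ne_zero (NeZero.ne N)) ?_)
    rw [← pow_succ', Nat.sub_add_cancel hℓ.one_lt.le, ← h, mul_one]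
  refine ⟨ℓ, hℓ, hℓS.1, hdvd, A, hA, τ, hτ, hτζ, ?_, ?_⟩
  · obtain ⟨α, β, hαβ, hσ⟩ := hσeig
    obtain ⟨a, b, hab⟩ := hsplit τ
    refine ⟨a, b, ne_of_charpoly_pow (φ τ) n hαβ hab ?_, hab⟩
    rw [← map_pow, apply_congr_of_factors hφ' fun y hy => hn y (le1 hy)]
    exact hσ
  · rintro ⟨m, hm⟩
    apply hσx
    refine ⟨m, ?_⟩
    have h := cocycle_pow_eq act x hx hm n
    rw [apply_congr_of_factors hact' fun y hy => hn y (le2 hy)] at h
    rw [← h]
    have hs : σ⁻¹ * τ ^ n ∈ F.fixingSubgroup := by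
      rw [IntermediateField.mem_fixingSubgroup_iff]
      intro y hy
      show σ⁻¹ ((τ ^ n) y) = y
      rw [hn y (le3 hy)]
      exact σ.symm_apply_apply y
    calc x σ = x (σ * (σ⁻¹ * τ ^ n)) := (hx' σ _ hs).symm
      _ = x (τ ^ n) := by rw [mul_inv_cancel_left]

end FLTA.Density
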